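import Fermat.Agent.H18.ORD.NodalValue
import Fermat.Agent.H94.FF.G7Prelim
import Fermat.Agent.H26.FF.TaylorApprox
import Fermat.Agent.H99.FF.RootApproxFinal
import Fermat.Agent.H66.FF.DiscZero

/-!
# P-ORD, block (G-B) : the LOCAL DISC BLOCKS on one component (helper21)

Twins of the local blocks of P-FF (`FF-G3` Taylor, `FF-G7-TAPPROX`, `FF-G7-ROOTAPPROX`,
`FF-G7-DISCZERO`) for ONE component of a nodal reduction, i.e. against helper18's
`Fermat.Agent.H18.ORD.CompHyp` (+ units of `V`, + places of degree one):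

* `DiscHyp A N V red r pt smooth` : the standing hypotheses; `discHyp_oo`, `discHyp_zero` are the
  two components of a `NodalRvHyp`;
* `IsUnrCoordC` : an unramified coordinate on the residue disc of a smooth point `Q` of the
  component;
* `DiscHyp.hasValue_red`, `hasValue_nonunit`, `value_mem_unrInt` : the value calculus;
* `DiscHyp.taylor_functional`, `DiscHyp.taylorRed` : the Taylor lemma;
* `DiscHyp.taylorApprox` : values at moving points of the disc are approximable;
* `DiscHyp.rootApprox` : the coordinate of a simple zero of a family is approximable;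
* `DiscHyp.discZero`, `DiscHyp.ord_eq_of_le` : zeros on a disc from the reduction.
-/

set_option autoImplicit false
set_option synthInstance.maxHeartbeats 400000
set_option maxHeartbeats 1600000
set_option linter.style.haveILetI false
set_option linter.unusedSectionVars false

noncomputable section

open AlgebraicCurve ModularCurve Fermat.Agent.H27.ESD

namespace Fermat.Agent.H21.Ord

open Fermat.Agent.H10.FF Fermat.Agent.H72.FF Fermat.Agent.H94.FF Fermat.Agent.H18.ORD

/-- **Standing hypotheses of the disc blocks** (one component of a nodal reduction). -/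
structure DiscHyp (A : ValuationSubring Qb) (N : ℕ) {Fc X : Type} [Field Fc]
    [Algebra (kRes A) Fc] (V : Subring (FLb N)) (red : V →+* Fc)
    (r : Place Qb (FLb N) → X) (pt : Place (kRes A) Fc → X)
    (smooth : Place (kRes A) Fc → Prop) : Prop where
  /-- the component -/
  comp : CompHyp A (IsLocalRing.residue A) V red r pt smooth
  /-- elements with nonzero reduction are units of `V` -/
  inv_mem : ∀ u : V, red u ≠ 0 → (u : FLb N)⁻¹ ∈ V
  /-- the places of the generic fibre have degree one -/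
  deg_one : ∀ P : Place Qb (FLb N), P.deg = 1

/-- An unramified coordinate on the residue disc of the smooth point `Q`. -/
structure IsUnrCoordC (A : ValuationSubring Qb) (N : ℕ) {Fc X : Type} [Field Fc]
    [Algebra (kRes A) Fc] (V : Subring (FLb N)) (red : V →+* Fc)
    (r : Place Qb (FLb N) → X) (pt : Place (kRes A) Fc → X)
    (smooth : Place (kRes A) Fc → Prop) (Q : Place (kRes A) Fc)
    (P : Place Qb (FLb N)) (t : V) : Prop where
  sm : smooth Q
  spec : r P = pt Q
  unrP : IsUnrPlace A N P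
  unrT : IsUnrFn A N (t : FLb N)
  zero : 1 ≤ P.ord (t : FLb N)
  simple : Q.ord (red t) = 1
  nopole : ∀ P1, r P1 = pt Q → 0 ≤ P1.ord (t : FLb N)

section Disc

variable {A : ValuationSubring Qb} {N : ℕ} {Fc X : Type} [Field Fc] [Algebra (kRes A) Fc]
  {V : Subring (FLb N)} {red : V →+* Fc} {r : Place Qb (FLb N) → X}
  {pt : Place (kRes A) Fc → X} {smooth : Place (kRes A) Fc → Prop}

/-! ### constants and units -/

/-- the constant `a ∈ A` as an element of `V` -/
def DiscHyp.const (H : DiscHyp A N V red r pt smooth) (a : A) : V :=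
  ⟨algebraMap Qb (FLb N) (a : Qb), H.comp.const_mem a⟩

@[simp]
theorem DiscHyp.coe_const (H : DiscHyp A N V red r pt smooth) (a : A) :
    ((H.const a : V) : FLb N) = algebraMap Qb (FLb N) (a : Qb) := rfl

theorem DiscHyp.red_const (H : DiscHyp A N V red r pt smooth) (a : A) :
    red (H.const a) = algebraMap (kRes A) Fc (IsLocalRing.residue A a) :=
  H.comp.red_const a _

/-- the inverse of an element with nonzero reduction -/
def DiscHyp.inv (H : DiscHyp A N V red r pt smooth) (u : V) (hu : red u ≠ 0) : V :=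
  ⟨(u : FLb N)⁻¹, H.inv_mem u hu⟩

theorem DiscHyp.mul_inv (H : DiscHyp A N V red r pt smooth) (u : V) (hu : red u ≠ 0) :
    u * H.inv u hu = 1 := by
  apply Subtype.ext
  show (u : FLb N) * (u : FLb N)⁻¹ = 1
  exact mul_inv_cancel₀ (nv_coe_ne_zero hu)

theorem DiscHyp.red_inv (H : DiscHyp A N V red r pt smooth) (u : V) (hu : red u ≠ 0) :
    red (H.inv u hu) = (red u)⁻¹ := by
  have h := congrArg red (H.mul_inv u hu)
  rw [map_mul, map_one] at h
  exact eq_inv_of_mul_eq_one_right h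

theorem IsUnrCoordC.red_ne_zero {Q : Place (kRes A) Fc} {P : Place Qb (FLb N)} {t : V}
    (ht : IsUnrCoordC A N V red r pt smooth Q P t) : red t ≠ 0 := by
  intro h0
  have h1 := ht.simple
  rw [h0, Place.ord_zero] at h1
  exact zero_ne_one h1

/-! ### the value calculus -/

/-- constants of `V` are integral -/
theorem DiscHyp.mem_of_algebraMap_mem (H : DiscHyp A N V red r pt smooth) {a : Qb}
    (ha : algebraMap Qb (FLb N) a ∈ V) : a ∈ A := by
  by_contra hna
  have ha0 : a ≠ 0 := by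
    rintro rfl
    exact hna A.zero_mem
  have hinv : a⁻¹ ∈ A := (A.mem_or_inv_mem a).resolve_left hna
  have hnu : ¬ IsUnit (⟨a⁻¹, hinv⟩ : A) := by
    intro hu
    obtain ⟨v, hv⟩ := hu.exists_right_inv
    have h1 : a⁻¹ * (v : Qb) = 1 := congrArg Subtype.val hv
    have hva : (v : Qb) = a := by
      have := congrArg (fun x => a * x) h1
      simp only [← mul_assoc, mul_inv_cancel₀ ha0, one_mul, mul_one] at this
      exact this
    exact hna (hva ▸ v.2)
  have h0 : IsLocalRing.residue A ⟨a⁻¹, hinv⟩ = 0 := (H.comp.hker _).mpr hnu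
  have hmul : (⟨algebraMap Qb (FLb N) a, ha⟩ : V) * H.const ⟨a⁻¹, hinv⟩ = 1 := by
    apply Subtype.ext
    show algebraMap Qb (FLb N) a * algebraMap Qb (FLb N) a⁻¹ = 1
    rw [← map_mul, mul_inv_cancel₀ ha0, map_one]
  have h2 := congrArg red hmul
  rw [map_mul, H.red_const, h0, map_zero, mul_zero, map_one] at h2
  exact zero_ne_one h2

/-- **Value lemma**, `HasVal` form: values of elements of `V` without poles on a disc are
integral and reduce to the values of the reduction. -/
theorem DiscHyp.hasValue_red (H : DiscHyp A N V red r pt smooth) (y : V)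
    (Q : Place (kRes A) Fc) (hQ : smooth Q)
    (hnp : ∀ P1, r P1 = pt Q → 0 ≤ P1.ord (y : FLb N))
    (P : Place Qb (FLb N)) (hP : r P = pt Q) (c : Qb) (hc : HasValue P (y : FLb N) c) :
    ∃ hcA : c ∈ A, HasVal Q (red y) (IsLocalRing.residue A ⟨c, hcA⟩) := by
  rcases hc with hc | hc
  · have hmem : algebraMap Qb (FLb N) c ∈ V := hc ▸ y.2
    have hcA := H.mem_of_algebraMap_mem hmem
    refine ⟨hcA, Or.inl ?_⟩
    have : y = H.const ⟨c, hcA⟩ := Subtype.ext hc
    rw [this, H.red_const]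
  · by_cases hyc : (y : FLb N) = algebraMap Qb (FLb N) c
    · have hmem : algebraMap Qb (FLb N) c ∈ V := hyc ▸ y.2
      have hcA := H.mem_of_algebraMap_mem hmem
      refine ⟨hcA, Or.inl ?_⟩
      have : y = H.const ⟨c, hcA⟩ := Subtype.ext hyc
      rw [this, H.red_const]
    · obtain ⟨hcA, h⟩ := H.comp.value_lemma y Q hQ hnp P hP c hc hyc
      exact ⟨hcA, h⟩

/-- the value of an element of `V` which reduces to a function vanishing at `Q` is a
nonunit -/
theorem DiscHyp.hasValue_nonunit (H : DiscHyp A N V red r pt smooth) (y : V)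
    (Q : Place (kRes A) Fc) (hQ : smooth Q)
    (hnp : ∀ P1, r P1 = pt Q → 0 ≤ P1.ord (y : FLb N))
    (hQ0 : HasVal Q (red y) 0)
    (P : Place Qb (FLb N)) (hP : r P = pt Q) (c : Qb) (hc : HasValue P (y : FLb N) c) :
    c ∈ A.nonunits := by
  obtain ⟨hcA, h⟩ := H.hasValue_red y Q hQ hnp P hP c hc
  have h0 : IsLocalRing.residue A ⟨c, hcA⟩ = 0 := h.unique hQ0
  have hnu : ¬ IsUnit (⟨c, hcA⟩ : A) := (H.comp.hker _).mp h0
  rw [ValuationSubring.mem_nonunits_iff_exists_mem_maximalIdeal]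
  exact ⟨hcA, (IsLocalRing.mem_maximalIdeal _).mpr hnu⟩

/-- the coordinate of a point of the disc is a nonunit -/
theorem DiscHyp.coord_value_nonunit (H : DiscHyp A N V red r pt smooth)
    {Q : Place (kRes A) Fc} {P : Place Qb (FLb N)} {t : V}
    (ht : IsUnrCoordC A N V red r pt smooth Q P t) (P1 : Place Qb (FLb N))
    (hP1 : r P1 = pt Q) (c : Qb) (hc : HasValue P1 (t : FLb N) c) : c ∈ A.nonunits := by
  refine H.hasValue_nonunit t Q ht.sm ht.nopole ?_ P1 hP1 c hc
  rw [hasVal_zero_iff]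
  right
  rw [ht.simple]

/-- the value of an unramified element of `V` at an unramified place (no poles on its disc)
lies in `R` -/
theorem DiscHyp.value_mem_unrInt (H : DiscHyp A N V red r pt smooth) (y : V)
    (Q : Place (kRes A) Fc) (hQ : smooth Q)
    (P : Place Qb (FLb N)) (hPQ : r P = pt Q)
    (hnp : ∀ P1, r P1 = pt Q → 0 ≤ P1.ord (y : FLb N))
    (hP : IsUnrPlace A N P) (hy : IsUnrFn A N (y : FLb N)) (c : Qb)
    (h : HasValue P (y : FLb N) c) : c ∈ unrInt A := by
  obtain ⟨hcA, -⟩ := H.hasValue_red y Q hQ hnp P hPQ c h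
  exact ⟨hcA, isUnr_value_fixed hP hy h⟩

/-! ### the Taylor lemma -/

/-- the divided difference `(m - m(O)) / t` -/
def DiscHyp.divDiff (H : DiscHyp A N V red r pt smooth) (t : V) (ht : red t ≠ 0) (m : V)
    (c : A) : V :=
  (m - H.const c) * H.inv t ht

theorem DiscHyp.coe_divDiff (H : DiscHyp A N V red r pt smooth) (t : V) (ht : red t ≠ 0)
    (m : V) (c : A) :
    ((H.divDiff t ht m c : V) : FLb N) =
      ((m : FLb N) - algebraMap Qb (FLb N) (c : Qb)) * ((t : FLb N))⁻¹ := rfl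

theorem DiscHyp.isUnrFn_divDiff (H : DiscHyp A N V red r pt smooth) (t : V) (ht : red t ≠ 0)
    (m : V) (c : A) (htU : IsUnrFn A N (t : FLb N)) (hmU : IsUnrFn A N (m : FLb N))
    (hc : (c : Qb) ∈ unrInt A) : IsUnrFn A N ((H.divDiff t ht m c : V) : FLb N) := by
  intro σ hσ
  rw [H.coe_divDiff, smul_mul', smul_sub, smul_inv'', htU σ hσ, hmU σ hσ,
    SemilinearAut.smul_algebraMap]
  have : SemilinearAut.baseAut (galF N σ) (c : Qb) = (c : Qb) := hc.2 σ hσ
  rw [this]

theorem DiscHyp.divDiff_nopole (H : DiscHyp A N V red r pt smooth)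
    {Q : Place (kRes A) Fc} {P : Place Qb (FLb N)} {t : V}
    (ht : IsUnrCoordC A N V red r pt smooth Q P t) (m : V) (c : A)
    (hm : ∀ P1, r P1 = pt Q → 0 ≤ P1.ord (m : FLb N))
    (hc : HasValue P (m : FLb N) (c : Qb)) (P1 : Place Qb (FLb N)) (hP1 : r P1 = pt Q) :
    0 ≤ P1.ord ((H.divDiff t ht.red_ne_zero m c : V) : FLb N) := by
  rw [H.coe_divDiff]
  by_cases h0 : (m : FLb N) - algebraMap Qb (FLb N) (c : Qb) = 0
  · rw [h0, zero_mul, Place.ord_zero]
  have ht0 : (t : FLb N) ≠ 0 := nv_coe_ne_zero ht.red_ne_zero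
  rw [P1.ord_mul h0 (inv_ne_zero ht0), P1.ord_inv]
  obtain ⟨h1, h2⟩ := H.comp.ord_eq_of_coord Q ht.sm P ht.spec t ht.zero ht.simple ht.nopole
  by_cases hPP : P1 = P
  · subst hPP
    rw [h1]
    rcases hc with hc | hc
    · exact absurd (sub_eq_zero.mpr hc) h0
    · omega
  · rw [h2 P1 hP1 hPP]
    obtain ⟨b, hb⟩ := exists_hasVal (H.deg_one P1) (hm P1 hP1)
    have := (hb.sub (hasVal_const P1 (c : Qb))).ord_nonneg
    omega

theorem DiscHyp.divDiff_mul_self (H : DiscHyp A N V red r pt smooth) (t : V)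
    (ht : red t ≠ 0) (m : V) (c : A) : t * H.divDiff t ht m c = m - H.const c := by
  apply Subtype.ext
  have ht0 : (t : FLb N) ≠ 0 := nv_coe_ne_zero ht
  show (t : FLb N) * (((m : FLb N) - algebraMap Qb (FLb N) (c : Qb)) * ((t : FLb N))⁻¹) =
    (m : FLb N) - algebraMap Qb (FLb N) (c : Qb)
  field_simp

/-- **Functional Taylor expansion** on the residue disc of a smooth point. -/
theorem DiscHyp.taylor_functional (H : DiscHyp A N V red r pt smooth)
    (Q : Place (kRes A) Fc) (P : Place Qb (FLb N)) (t : V)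
    (hc : IsUnrCoordC A N V red r pt smooth Q P t)
    (y : V) (hy : IsUnrFn A N (y : FLb N))
    (hnp : ∀ P1, r P1 = pt Q → 0 ≤ P1.ord (y : FLb N)) (M : ℕ) :
    ∃ (c : Fin M → A) (yM : V), (∀ n, ((c n : A) : Qb) ∈ unrInt A) ∧
      IsUnrFn A N (yM : FLb N) ∧ (∀ P1, r P1 = pt Q → 0 ≤ P1.ord (yM : FLb N)) ∧
      y = ∑ n : Fin M, H.const (c n) * t ^ (n : ℕ) + t ^ M * yM := by
  induction M with
  | zero =>
    refine ⟨Fin.elim0, y, fun n => n.elim0, hy, hnp, ?_⟩
    simp
  | succ M ih =>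
    obtain ⟨c, yM, hcR, hyMU, hyMnp, hyM⟩ := ih
    have hv : HasValue P (yM : FLb N) (valAt P (yM : FLb N)) :=
      hasVal_valAt_of_ord (H.deg_one P) (hyMnp P hc.spec)
    have hvR : valAt P (yM : FLb N) ∈ unrInt A :=
      H.value_mem_unrInt yM Q hc.sm P hc.spec hyMnp hc.unrP hyMU _ hv
    let cM : A := ⟨valAt P (yM : FLb N), hvR.1⟩
    refine ⟨Fin.snoc c cM, H.divDiff t hc.red_ne_zero yM cM, ?_,
      H.isUnrFn_divDiff _ _ _ _ hc.unrT hyMU hvR,
      fun P1 h1 => H.divDiff_nopole hc yM cM hyMnp hv P1 h1, ?_⟩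
    · intro n
      refine Fin.lastCases ?_ (fun n => ?_) n
      · rw [Fin.snoc_last]
        exact hvR
      · rw [Fin.snoc_castSucc]
        exact hcR n
    · rw [Fin.sum_univ_castSucc]
      simp only [Fin.snoc_castSucc, Fin.snoc_last, Fin.val_castSucc, Fin.val_last]
      rw [pow_succ, mul_assoc, H.divDiff_mul_self]
      conv_lhs => rw [hyM]
      ring

theorem nd_ord_pow_nat {K F : Type*} [Field K] [Field F] [Algebra K F] (v : Place K F) (f : F)
    (n : ℕ) : v.ord (f ^ n) = n * v.ord f := by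
  have := v.ord_zpow f (n : ℤ)
  rwa [zpow_natCast] at this

/-- **Taylor lemma with reduction** (twin of `Fermat.Agent.H72.FF.TaylorRedStatement`). -/
theorem DiscHyp.taylorRed (H : DiscHyp A N V red r pt smooth)
    (Q : Place (kRes A) Fc) (P : Place Qb (FLb N)) (t : V)
    (hc : IsUnrCoordC A N V red r pt smooth Q P t)
    (y : V) (hy : IsUnrFn A N (y : FLb N))
    (hnp : ∀ P1, r P1 = pt Q → 0 ≤ P1.ord (y : FLb N)) (M : ℕ) :
    ∃ c : Fin M → A, (∀ n, ((c n : A) : Qb) ∈ unrInt A) ∧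
      (∀ P1, r P1 = pt Q → ∀ a b : Qb, HasValue P1 (t : FLb N) a →
        HasValue P1 (y : FLb N) b →
        ∃ e ∈ A, b - ∑ n : Fin M, ((c n : A) : Qb) * a ^ (n : ℕ) = a ^ M * e) ∧
      (red y - ∑ n : Fin M,
          algebraMap (kRes A) Fc (IsLocalRing.residue A (c n)) * (red t) ^ (n : ℕ) = 0 ∨
        (M : ℤ) ≤ (Q.ord (red y - ∑ n : Fin M,
          algebraMap (kRes A) Fc (IsLocalRing.residue A (c n)) * (red t) ^ (n : ℕ)))) := by
  obtain ⟨c, yM, hcR, hyMU, hyMnp, hyM⟩ := H.taylor_functional Q P t hc y hy hnp M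
  refine ⟨c, hcR, ?_, ?_⟩
  · intro P1 hP1 a b ha hb
    obtain ⟨e, he⟩ := exists_hasVal (H.deg_one P1) (hyMnp P1 hP1)
    obtain ⟨heA, -⟩ := H.hasValue_red yM Q hc.sm hyMnp P1 hP1 e he
    refine ⟨e, heA, ?_⟩
    have h1 : HasVal P1 ((y : V) : FLb N)
        (∑ n : Fin M, ((c n : A) : Qb) * a ^ (n : ℕ) + a ^ M * e) := by
      have h2 : ((y : V) : FLb N) =
          ∑ n : Fin M, algebraMap Qb (FLb N) ((c n : A) : Qb) * (t : FLb N) ^ (n : ℕ) +
            (t : FLb N) ^ M * (yM : FLb N) := by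
        conv_lhs => rw [hyM]
        rw [Subring.coe_add, AddSubmonoidClass.coe_finsetSum]
        rfl
      rw [h2]
      refine HasVal.add (hasVal_sum _ _ _ fun n _ => ?_) ?_
      · exact HasVal.const_mul _ (HasVal.pow ha _)
      · exact HasVal.mul (HasVal.pow ha _) he
    have h3 : b = ∑ n : Fin M, ((c n : A) : Qb) * a ^ (n : ℕ) + a ^ M * e :=
      HasVal.unique hb h1
    rw [h3]
    ring
  · have h2 : red y - ∑ n : Fin M,
        algebraMap (kRes A) Fc (IsLocalRing.residue A (c n)) * (red t) ^ (n : ℕ) =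
          (red t) ^ M * red yM := by
      conv_lhs => rw [hyM]
      rw [map_add, map_sum, map_mul, map_pow]
      simp only [map_mul, map_pow, H.red_const]
      ring
    rw [h2]
    by_cases h0 : red yM = 0
    · left
      rw [h0, mul_zero]
    · right
      have ht0 : red t ≠ 0 := hc.red_ne_zero
      rw [Q.ord_mul (pow_ne_zero _ ht0) h0, nd_ord_pow_nat, hc.simple]
      have h5 : 0 ≤ Q.ord (red yM) := H.comp.ord_red_nonneg yM h0 Q hc.sm hyMnp
      omega

/-! ### T-APPROX -/

/-- **T-APPROX** (twin of `Fermat.Agent.H94.FF.TaylorApproxStatement`): the value of an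
unramified function at a moving point of a residue disc is approximable as soon as the
coordinate of the point is. -/
theorem DiscHyp.taylorApprox (H : DiscHyp A N V red r pt smooth) {ℓ : ℕ} (hℓ : ℓ.Prime)
    (hA : A.LiesOverPrime ℓ)
    (Q : Place (kRes A) Fc) (P : Place Qb (FLb N)) (t : V)
    (hc : IsUnrCoordC A N V red r pt smooth Q P t)
    (y : V) (hy : IsUnrFn A N (y : FLb N))
    (hnp : ∀ P1, r P1 = pt Q → 0 ≤ P1.ord (y : FLb N))
    (S : Type) [Finite S] (n : ℕ) (x : S → Fin n → Qb) (hx : ∀ s i, x s i ∈ A.nonunits)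
    (pnt : S → Place Qb (FLb N)) (τ v : S → Qb) (hpt : ∀ s, r (pnt s) = pt Q)
    (hτv : ∀ s, HasValue (pnt s) (t : FLb N) (τ s))
    (hyv : ∀ s, HasValue (pnt s) (y : FLb N) (v s))
    (hτ : IsApprox ℓ A x τ) : IsApprox ℓ A x v := by
  have hxA : ∀ s i, x s i ∈ A := fun s i => ValuationSubring.nonunits_subset (hx s i)
  have hτm : ∀ s, τ s ∈ A.nonunits :=
    fun s => H.coord_value_nonunit hc (pnt s) (hpt s) (τ s) (hτv s)
  apply Fermat.Agent.H26.FF.isApprox_of_limit
  intro M
  obtain ⟨M1, hM1⟩ := Fermat.Agent.H26.FF.exists_pow_eq_prime_pow_mul hℓ hA τ hτm M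
  obtain ⟨c, hcR, hTay, -⟩ := H.taylorRed Q P t hc y hy hnp M1
  refine ⟨fun s => ∑ k : Fin M1, ((c k : A) : Qb) * τ s ^ (k : ℕ), ?_, fun s => ?_⟩
  · exact Fermat.Agent.H26.FF.isApprox_sum_univ fun k =>
      Fermat.Agent.H26.FF.isApprox_mul hxA (Fermat.Agent.H26.FF.isApprox_const (hcR k))
        (Fermat.Agent.H26.FF.isApprox_pow hxA hτ k)
  · obtain ⟨e, he, h1⟩ := hTay (pnt s) (hpt s) (τ s) (v s) (hτv s) (hyv s)
    obtain ⟨e', he', h2⟩ := hM1 s
    exact ⟨e' * e, mul_mem he' he, by rw [h1, h2]; ring⟩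

/-! ### ROOT-APPROX -/

/-- the underlying function of a `κ`-combination in `V` -/
theorem DiscHyp.coe_sum_const_mul (H : DiscHyp A N V red r pt smooth) {d : ℕ} (κ : Fin d → A)
    (y : Fin d → V) :
    (((∑ j, H.const (κ j) * y j : V)) : FLb N)
      = ∑ j, algebraMap Qb (FLb N) (κ j : Qb) * (y j : FLb N) := by
  rw [AddSubmonoidClass.coe_finsetSum]
  rfl

/-- the reduction of a `κ`-combination -/
theorem DiscHyp.red_sum_const_mul (H : DiscHyp A N V red r pt smooth) {d : ℕ} (κ : Fin d → A)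
    (y : Fin d → V) :
    red (∑ j, H.const (κ j) * y j)
      = ∑ j, algebraMap (kRes A) Fc (IsLocalRing.residue A (κ j)) * red (y j) := by
  rw [map_sum]
  refine Finset.sum_congr rfl fun j _ => ?_
  rw [map_mul, H.red_const]

/-- **ROOT-APPROX** (twin of `Fermat.Agent.H94.FF.RootApproxStatement`): the coordinate of a zero
of a family `F(s) = ∑ κ_j(s) y_j` whose reduction vanishes simply at `Q` is approximable. -/
theorem DiscHyp.rootApprox (H : DiscHyp A N V red r pt smooth) {ℓ : ℕ} (hℓ : ℓ.Prime)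
    (hA : A.LiesOverPrime ℓ)
    (Q : Place (kRes A) Fc) (P : Place Qb (FLb N)) (t : V)
    (ht : IsUnrCoordC A N V red r pt smooth Q P t)
    (d : ℕ) (y : Fin d → V) (hyU : ∀ j, IsUnrFn A N (y j : FLb N))
    (hynp : ∀ j P1, r P1 = pt Q → 0 ≤ P1.ord (y j : FLb N))
    (S : Type) [Finite S] (n : ℕ) (x : S → Fin n → Qb) (hx : ∀ s i, x s i ∈ A.nonunits)
    (κ : Fin d → S → A) (hκ : ∀ j, IsApprox ℓ A x (fun s => (κ j s : Qb)))
    (hsimple : ∀ s, Q.ord (red (∑ j, H.const (κ j s) * y j)) = 1)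
    (pnt : S → Place Qb (FLb N)) (τ : S → Qb) (hpt : ∀ s, r (pnt s) = pt Q)
    (hτ : ∀ s, HasValue (pnt s) (t : FLb N) (τ s))
    (hF : ∀ s, HasValue (pnt s) (((∑ j, H.const (κ j s) * y j : V)) : FLb N) 0) :
    IsApprox ℓ A x τ := by
  have hxA : ∀ s i, x s i ∈ A := fun s i => ValuationSubring.nonunits_subset (hx s i)
  -- (1) the coordinate is a nonunit
  have hτnu : ∀ s, τ s ∈ A.nonunits := fun s =>
    H.coord_value_nonunit ht (pnt s) (hpt s) (τ s) (hτ s)
  have hτA : ∀ s, τ s ∈ A := fun s => ValuationSubring.nonunits_subset (hτnu s)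
  refine Fermat.Agent.H99.FF.rootFixed ℓ A hℓ hA S n x hx τ hτnu fun M => ?_
  -- (2) a uniform exponent
  obtain ⟨M0, hM0⟩ := Fermat.Agent.H26.FF.exists_pow_eq_prime_pow_mul hℓ hA τ hτnu M
  -- (3) Taylor expansions of order `M0 + 2`
  have hTay := fun j => H.taylorRed Q P t ht (y j) (hyU j) (hynp j) (M0 + 2)
  choose c hcR hcval hcred using hTay
  -- the reduction argument
  have hkey : ∀ s, (∑ j, IsLocalRing.residue A (κ j s) * IsLocalRing.residue A (c j 0)) = 0 ∧
      (∑ j, IsLocalRing.residue A (κ j s) * IsLocalRing.residue A (c j 1)) ≠ 0 := by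
    intro s
    have hE := hsimple s
    rw [H.red_sum_const_mul] at hE
    exact Fermat.Agent.H99.FF.simple_zero_family Q ht.simple d M0
      (fun j => IsLocalRing.residue A (κ j s))
      (fun j m => IsLocalRing.residue A (c j m)) (fun j => red (y j))
      (fun j => hcred j) hE
  have hres : ∀ (m : Fin (M0 + 2)) (s : S), IsLocalRing.residue A (∑ j, κ j s * c j m)
      = ∑ j, IsLocalRing.residue A (κ j s) * IsLocalRing.residue A (c j m) := by
    intro m s
    simp only [map_sum, map_mul]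
  have hcoe : ∀ (m : Fin (M0 + 2)) (s : S), (((∑ j, κ j s * c j m : A)) : Qb)
      = ∑ j, (κ j s : Qb) * ((c j m : A) : Qb) := by
    intro m s
    rw [AddSubmonoidClass.coe_finsetSum]
    rfl
  refine ⟨M0, fun m s => ∑ j, (κ j s : Qb) * ((c j m : A) : Qb), ?_, ?_, ?_, ?_, ?_⟩
  · -- approximability of the coefficients
    intro m
    exact Fermat.Agent.H26.FF.isApprox_sum_univ fun j =>
      Fermat.Agent.H26.FF.isApprox_mul hxA (hκ j)
        (Fermat.Agent.H26.FF.isApprox_const (hcR j m))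
  · intro m s
    exact sum_mem fun j _ => mul_mem (κ j s).2 (c j m).2
  · -- `φ 0` has values in the maximal ideal
    intro s
    have h0 : IsLocalRing.residue A (∑ j, κ j s * c j 0) = 0 := (hres 0 s).trans (hkey s).1
    have hnu : ¬ IsUnit (∑ j, κ j s * c j 0 : A) := (H.comp.hker _).mp h0
    show (∑ j, (κ j s : Qb) * ((c j 0 : A) : Qb)) ∈ A.nonunits
    rw [← hcoe 0 s, ValuationSubring.mem_nonunits_iff_exists_mem_maximalIdeal]
    exact ⟨(∑ j, κ j s * c j 0 : A).2, (IsLocalRing.mem_maximalIdeal _).mpr hnu⟩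
  · -- `φ 1` has unit values
    intro s
    have h1 : IsLocalRing.residue A (∑ j, κ j s * c j 1) ≠ 0 := by
      rw [hres 1 s]
      exact (hkey s).2
    have hu : IsUnit (∑ j, κ j s * c j 1 : A) := by
      by_contra hnu
      exact h1 ((H.comp.hker _).mpr hnu)
    have := Fermat.Agent.H99.FF.inv_mem_of_isUnit hu
    rw [hcoe 1 s] at this
    exact this
  · -- the equation
    intro s
    have hbex : ∀ j, ∃ b : Qb, HasVal (pnt s) (y j : FLb N) b := fun j =>
      exists_hasVal (H.deg_one (pnt s)) (hynp j (pnt s) (hpt s))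
    choose b hb using hbex
    have hval : HasVal (pnt s) (∑ j, algebraMap Qb (FLb N) (κ j s : Qb) * (y j : FLb N))
        (∑ j, (κ j s : Qb) * b j) :=
      hasVal_sum Finset.univ _ _ fun j _ => HasVal.const_mul _ (hb j)
    have hF' : HasVal (pnt s) (∑ j, algebraMap Qb (FLb N) (κ j s : Qb) * (y j : FLb N)) 0 := by
      have := hF s
      rw [H.coe_sum_const_mul] at this
      exact this
    have hzero : ∑ j, (κ j s : Qb) * b j = 0 := hval.unique hF'
    have hTj : ∀ j, ∃ e ∈ A, b j - ∑ m : Fin (M0 + 2), ((c j m : A) : Qb) * τ s ^ (m : ℕ)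
        = τ s ^ (M0 + 2) * e := fun j =>
      hcval j (pnt s) (hpt s) (τ s) (b j) (hτ s) (hb j)
    choose e heA he using hTj
    obtain ⟨e0, he0A, he0⟩ := hM0 s
    refine ⟨-(e0 * τ s ^ 2 * ∑ j, (κ j s : Qb) * e j), ?_, ?_⟩
    · refine neg_mem (mul_mem (mul_mem he0A (pow_mem (hτA s) 2)) ?_)
      exact sum_mem fun j _ => mul_mem (κ j s).2 (heA j)
    · exact Fermat.Agent.H99.FF.family_equation d M0 (fun j => (κ j s : Qb))
        (fun j m => ((c j m : A) : Qb)) b e (τ s) e0 ((ℓ : Qb) ^ M) he hzero he0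

/-! ### DISC-ZERO -/

/-- **DISC-ZERO** (twin of `Fermat.Agent.H94.FF.DiscZeroStatement`): an element of `V` without
poles on the disc of the smooth point `Q` whose reduction has a simple zero at `Q` has exactly
one zero in the disc, and it is simple. -/
theorem DiscHyp.discZero (H : DiscHyp A N V red r pt smooth) (Q : Place (kRes A) Fc)
    (hQs : smooth Q) (u : V) (hQ : Q.ord (red u) = 1)
    (hnp : ∀ P1, r P1 = pt Q → 0 ≤ P1.ord (u : FLb N)) :
    ∃ P, r P = pt Q ∧ P.ord (u : FLb N) = 1 ∧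
      ∀ P1, r P1 = pt Q → P1 ≠ P → P1.ord (u : FLb N) = 0 := by
  have hu : red u ≠ 0 := by
    intro h0
    rw [h0, Place.ord_zero] at hQ
    exact zero_ne_one hQ
  obtain ⟨D, hD⟩ := H.comp.hdiv _ (nv_coe_ne_zero hu)
  have h1 : Finsupp.mapDomain r D (pt Q) = 1 := by rw [H.comp.cons u hu D hD Q hQs, hQ]
  have hnn : ∀ P1, r P1 = pt Q → 0 ≤ D P1 := fun P1 h => by rw [hD]; exact hnp P1 h
  obtain ⟨P, hP, hDP, hoth⟩ :=
    Fermat.Agent.H66.FF.dz_unique_of_mapDomain_one r D (pt Q) hnn h1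
  refine ⟨P, hP, by rw [← hD, hDP], ?_⟩
  intro P1 hP1 hne
  rw [← hD]
  exact hoth P1 hP1 hne

/-- **Fibrewise divisor lifting**: if `E ≤ div u` on the fibre of the smooth point `Q` and
`(r_* E)(Q) = ord_Q (red u)` then `ord_P u = E P` on the fibre. -/
theorem DiscHyp.ord_eq_of_le (H : DiscHyp A N V red r pt smooth) (Q : Place (kRes A) Fc)
    (hQs : smooth Q) (u : V) (hu : red u ≠ 0) (E : Divisor Qb (FLb N))
    (hE : ∀ P, r P = pt Q → E P ≤ P.ord (u : FLb N))
    (hmap : Finsupp.mapDomain r E (pt Q) = Q.ord (red u))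
    (P : Place Qb (FLb N)) (hP : r P = pt Q) : P.ord (u : FLb N) = E P := by
  obtain ⟨D, hD⟩ := H.comp.hdiv _ (nv_coe_ne_zero hu)
  have h1 : Finsupp.mapDomain r (D - E) (pt Q) = 0 := by
    rw [Finsupp.mapDomain_sub, Finsupp.sub_apply, H.comp.cons u hu D hD Q hQs, hmap, sub_self]
  have h2 : ∀ P1, r P1 = pt Q → 0 ≤ (D - E) P1 := by
    intro P1 hP1
    rw [Finsupp.sub_apply, hD]
    have := hE P1 hP1
    omega
  have h3 := Fermat.Agent.H18.rv_le_mapDomain r (D - E) (pt Q) P hP h2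
  rw [h1, Finsupp.sub_apply, hD] at h3
  have := hE P hP
  omega

end Disc

/-! ### the two components of a nodal reduction -/

section Nodal

variable {N : ℕ} {A : ValuationSubring Qb} {Foo F0 : Type} [Field Foo] [Field F0]
  [Algebra (kRes A) Foo] [Algebra (kRes A) F0] {ι : Type} {p : ℕ}
  {G : NodalData N A Foo F0 ι}

/-- the component `C_∞` of a nodal reduction -/
theorem discHyp_oo (H : NodalRvHyp p G) (hprin : HasPrincipalDivisors Qb (FLb N))
    (hdeg : ∀ P : Place Qb (FLb N), P.deg = 1) :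
    DiscHyp A N G.Voo G.redOo G.r NPt.oo (fun Q => Q ∉ Set.range G.nOo) where
  comp := H.compOo hprin
  inv_mem := H.inv_oo
  deg_one := hdeg

/-- the component `C_0` of a nodal reduction -/
theorem discHyp_zero (H : NodalRvHyp p G) (hprin : HasPrincipalDivisors Qb (FLb N))
    (hdeg : ∀ P : Place Qb (FLb N), P.deg = 1) :
    DiscHyp A N G.V0 G.red0 G.r NPt.zero (fun Q => Q ∉ Set.range G.n0) where
  comp := H.compZero hprin
  inv_mem := H.inv_zero
  deg_one := hdeg

end Nodal

end Fermat.Agent.H21.Ord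

end
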