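/-
helper21 (P-ORD, decision (3) of the lead's GO message): LEVEL DESCENT for the J-side contract
`Fermat.Agent.H14.ORD.OrdinaryTorsionStatement`.

* `exists_levelMap_dvd` : for `N ∣ N'` a Galois-equivariant homomorphism `J₀(N) → J₀(N')`
  whose kernel is killed by some `d ≠ 0` (composition of helper71's prime steps).
* `OrdTorsionAt N p A c` : the contract at one place `A` with the constant `c`.
* `ordTorsionAt_descent` : the abstract level step (pull back `W1'`, multiply by `d`).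
* `ordinaryTorsion_of_dvd` : `OrdinaryTorsionStatement N' p → OrdinaryTorsionStatement N p`
  for `N ∣ N'`.
* `ordinaryTorsion_of_aux` : it suffices to prove the contract at the levels `N'` with
  `p ∥ N'` and `m ∣ N'` (`m` any auxiliary integer prime to `p`, e.g. `m = 4`).
-/
import Fermat.Agent.H14.ORD.Interfaces
import Fermat.Agent.H71.SS.LevelMap

set_option autoImplicit false
set_option synthInstance.maxHeartbeats 400000
set_option linter.style.haveILetI false
set_option linter.unusedSectionVars false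
set_option linter.unusedVariables false

noncomputable section

namespace Fermat.Agent.H21.Ord

open AlgebraicCurve ModularCurve Fermat.Agent.H14.ORD

/-- **Level maps for `N ∣ N'`.** -/
theorem exists_levelMap_dvd : ∀ (k N N' : ℕ) [NeZero N] [NeZero N'], N * k = N' →
    ∃ (f : JZero N →+ JZero N') (d : ℕ), d ≠ 0 ∧
      (∀ (σ : AlgebraicClosure ℚ ≃ₐ[ℚ] AlgebraicClosure ℚ) (x : JZero N),
        f (σ • x) = σ • f x) ∧
      ∀ x : JZero N, f x = 0 → d • x = 0 := by
  intro k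
  induction k using Nat.strong_induction_on with
  | _ k ih =>
    intro N N' _ _ hk
    rcases Nat.lt_or_ge k 2 with hk2 | hk2
    · have hk1 : k = 1 := by
        rcases Nat.eq_zero_or_pos k with h0 | h0
        · subst h0
          rw [Nat.mul_zero] at hk
          exact absurd hk.symm (NeZero.ne N')
        · omega
      subst hk1
      rw [Nat.mul_one] at hk
      subst hk
      exact ⟨AddMonoidHom.id _, 1, one_ne_zero, fun _ _ => rfl, fun x hx => by
        rw [one_smul]; exact hx⟩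
    · have hℓ : (Nat.minFac k).Prime := Nat.minFac_prime (by omega)
      haveI : NeZero (Nat.minFac k) := ⟨hℓ.ne_zero⟩
      have hdiv : Nat.minFac k * (k / Nat.minFac k) = k := Nat.mul_div_cancel' (Nat.minFac_dvd k)
      have hlt : k / Nat.minFac k < k := Nat.div_lt_self (by omega) hℓ.one_lt
      haveI : NeZero (N * Nat.minFac k) := ⟨Nat.mul_ne_zero (NeZero.ne N) hℓ.ne_zero⟩
      have hk' : N * Nat.minFac k * (k / Nat.minFac k) = N' := by
        rw [Nat.mul_assoc, hdiv, hk]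
      obtain ⟨f₂, d₂, hd₂, hf₂, hker₂⟩ := ih _ hlt (N * Nat.minFac k) N' hk'
      obtain ⟨f₁, d₁, hd₁, hf₁, hker₁⟩ := Fermat.Agent.H71.SS.exists_levelMap N (Nat.minFac k) hℓ
      refine ⟨f₂.comp f₁, d₁ * d₂, Nat.mul_ne_zero hd₁ hd₂, ?_, ?_⟩
      · intro σ x
        rw [AddMonoidHom.comp_apply, AddMonoidHom.comp_apply, hf₁, hf₂]
      · intro x hx
        rw [AddMonoidHom.comp_apply] at hx
        have h1 : d₂ • f₁ x = 0 := hker₂ _ hx
        rw [← map_nsmul] at h1
        have h2 := hker₁ _ h1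
        rw [mul_smul]
        exact h2

/-- The J-side contract of S33 at one place `A`, with the constant `c`. -/
def OrdTorsionAt (N p : ℕ) [NeZero N] (A : ValuationSubring (AlgebraicClosure ℚ)) (c : ℕ) :
    Prop :=
  ∀ n : ℕ, ∃ W1 : AddSubgroup (JZero N),
    (∀ σ ∈ A.inertiaSubgroupIn ℚ, ∀ x ∈ W1, σ • x ∈ W1) ∧
    (∀ σ ∈ A.inertiaSubgroupIn ℚ, ∀ x : JZero N, p ^ n • x = 0 → c • (σ • x - x) ∈ W1) ∧
    NoTrivSubquot (A.inertiaSubgroupIn ℚ : Set (AlgebraicClosure ℚ ≃ₐ[ℚ] AlgebraicClosure ℚ)) W1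

theorem ordinaryTorsionStatement_iff (N p : ℕ) [NeZero N] :
    OrdinaryTorsionStatement N p ↔
      ∀ A : ValuationSubring (AlgebraicClosure ℚ), A.LiesOverPrime p →
        ∃ c : ℕ, 0 < c ∧ OrdTorsionAt N p A c :=
  Iff.rfl

/-- **Abstract level step.**  If `f : J₀(N) → J₀(N')` is Galois equivariant with kernel killed
by `d`, the contract at level `N'` with constant `c` gives the contract at level `N` with
constant `d * c`: take `W1 = d • f⁻¹(W1')`. -/
theorem ordTorsionAt_descent {N N' p : ℕ} [NeZero N] [NeZero N']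
    (f : JZero N →+ JZero N') (d : ℕ)
    (hf : ∀ (σ : AlgebraicClosure ℚ ≃ₐ[ℚ] AlgebraicClosure ℚ) (x : JZero N),
      f (σ • x) = σ • f x)
    (hker : ∀ x : JZero N, f x = 0 → d • x = 0)
    {A : ValuationSubring (AlgebraicClosure ℚ)} {c : ℕ} (h : OrdTorsionAt N' p A c) :
    OrdTorsionAt N p A (d * c) := by
  intro n
  obtain ⟨W', hs, ha, hb⟩ := h n
  -- `U = f⁻¹(W')`, `W1 = d • U`
  set U : AddSubgroup (JZero N) := W'.comap f with hU
  have hUs : ∀ σ ∈ A.inertiaSubgroupIn ℚ, ∀ u ∈ U, σ • u ∈ U := by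
    intro σ hσ u hu
    show f (σ • u) ∈ W'
    rw [hf]
    exact hs σ hσ _ hu
  refine ⟨U.map (nsmulAddMonoidHom (α := JZero N) d), ?_, ?_, ?_⟩
  · rintro σ hσ _ ⟨u, hu, rfl⟩
    refine ⟨σ • u, hUs σ hσ u hu, ?_⟩
    show d • (σ • u) = σ • (d • u)
    rw [smul_comm]
  · intro σ hσ x hx
    have hx' : p ^ n • f x = 0 := by rw [← map_nsmul, hx, map_zero]
    have h1 := ha σ hσ (f x) hx'
    refine ⟨c • (σ • x - x), ?_, ?_⟩
    · show f (c • (σ • x - x)) ∈ W'
      rw [map_nsmul, map_sub, hf]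
      exact h1
    · show d • (c • (σ • x - x)) = (d * c) • (σ • x - x)
      rw [mul_smul]
  · intro Y Y' hYY' hY'W hYs hYt
    -- the lifted chain in `W'`
    set Yt : AddSubgroup (JZero N') :=
      (U ⊓ Y.comap (nsmulAddMonoidHom (α := JZero N) d)).map f with hYtdef
    set Yt' : AddSubgroup (JZero N') :=
      (U ⊓ Y'.comap (nsmulAddMonoidHom (α := JZero N) d)).map f with hYt'def
    have hle : Yt' ≤ Yt := by
      refine hb Yt Yt' ?_ ?_ ?_ ?_
      · exact AddSubgroup.map_mono (inf_le_inf_left U (AddSubgroup.comap_mono hYY'))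
      · rintro _ ⟨u, ⟨hu, -⟩, rfl⟩
        exact hu
      · rintro σ hσ _ ⟨u, ⟨hu, hdu⟩, rfl⟩
        refine ⟨σ • u, ⟨hUs σ hσ u hu, ?_⟩, hf σ u⟩
        show d • (σ • u) ∈ Y
        rw [smul_comm]
        exact hYs σ hσ _ hdu
      · rintro σ hσ _ ⟨u, ⟨hu, hdu⟩, rfl⟩
        refine ⟨σ • u - u, ⟨U.sub_mem (hUs σ hσ u hu) hu, ?_⟩, ?_⟩
        · show d • (σ • u - u) ∈ Y
          rw [nsmul_sub, smul_comm]
          exact hYt σ hσ _ hdu
        · rw [map_sub, hf]
    intro y' hy'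
    obtain ⟨u, hu, rfl⟩ := hY'W hy'
    have h1 : f u ∈ Yt' := ⟨u, ⟨hu, hy'⟩, rfl⟩
    obtain ⟨u₁, ⟨hu₁, hdu₁⟩, hfu⟩ := hle h1
    have h2 : f (u - u₁) = 0 := by rw [map_sub, hfu, sub_self]
    have h3 := hker _ h2
    rw [nsmul_sub, sub_eq_zero] at h3
    show d • u ∈ Y
    rw [h3]
    exact hdu₁

/-- **Level descent**: the contract at a multiple `N'` of `N` implies the contract at `N`. -/
theorem ordinaryTorsion_of_dvd {N N' : ℕ} [NeZero N] [NeZero N'] (hNN' : N ∣ N') (p : ℕ)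
    (h : OrdinaryTorsionStatement N' p) : OrdinaryTorsionStatement N p := by
  obtain ⟨k, hk⟩ := hNN'
  obtain ⟨f, d, hd, hf, hker⟩ := exists_levelMap_dvd k N N' hk.symm
  intro A hA
  obtain ⟨c, hc, hat⟩ := h A hA
  exact ⟨d * c, Nat.mul_pos (Nat.pos_of_ne_zero hd) hc, ordTorsionAt_descent f d hf hker hat⟩

/-- **Reduction to an auxiliary level.**  Let `m ≥ 1` be prime to `p`.  If the contract holds at
all levels `N'` with `p ∥ N'` and `m ∣ N'`, it holds at all levels `N` with `p ∥ N`. -/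
theorem ordinaryTorsion_of_aux (p m : ℕ) (hp : p.Prime) (hm : m ≠ 0) (hpm : Nat.Coprime p m)
    (hAux : ∀ (N' : ℕ) [NeZero N'], p ∣ N' → ¬ p ^ 2 ∣ N' → m ∣ N' →
      OrdinaryTorsionStatement N' p)
    (N : ℕ) [NeZero N] (hpN : p ∣ N) (hp2N : ¬ p ^ 2 ∣ N) : OrdinaryTorsionStatement N p := by
  haveI : NeZero (N * m) := ⟨Nat.mul_ne_zero (NeZero.ne N) hm⟩
  refine ordinaryTorsion_of_dvd (N' := N * m) (Dvd.intro m rfl) p
    (hAux (N * m) (Dvd.dvd.mul_right hpN m) ?_ (Dvd.intro_left N rfl))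
  intro h
  exact hp2N ((Nat.Coprime.pow_left 2 hpm).dvd_of_dvd_mul_right h)

end Fermat.Agent.H21.Ord
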