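import Fermat.Agent.H18.ORD.NodalBal
import Fermat.Agent.H18.RedCoord
import Fermat.Agent.H56.FF.JacGeneric

/-!
# P-ORD, block (G-A) : UNIQ (helper21)

Against the abstract nodal interface `Fermat.Agent.H18.ORD.NodalRvHyp` and the key lemma
`NodalRvHyp.bal` :

* `nodal_rr_const` : **`L(E') = ℚ̄`** for every effective divisor `E'` of the generic fibre
  without point specialising to a node and with `r_* E' ≤ Ō` on the smooth points of both
  components (`Ō = (Boo, B0)` a base with (NS1), (NS2));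
* `nodal_eq_of_principal` : two effective divisors `E ∼ E'`, `E'` as above, are equal;
* `nodal_rep_unique` : **uniqueness of the Jacobi representation** `[∑ (P i - O i)]`,
  `r (P i) = r (O i)`.
-/

set_option autoImplicit false
set_option linter.unusedSectionVars false
set_option maxHeartbeats 1600000

noncomputable section

open AlgebraicCurve ModularCurve

namespace Fermat.Agent.H21.Ord

open Fermat.Agent.H72.FF Fermat.Agent.H18.ORD

variable {N : ℕ} {A : ValuationSubring Qb} {Foo F0 : Type} [Field Foo] [Field F0]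
  [Algebra (kRes A) Foo] [Algebra (kRes A) F0] {ι : Type} {p : ℕ}
  {G : NodalData N A Foo F0 ι}

/-- push-forward is monotone at a point -/
theorem nu_mapDomain_mono {α β : Type*} (f : α → β) (D D' : α →₀ ℤ) (h : ∀ a, D a ≤ D' a)
    (b : β) : Finsupp.mapDomain f D b ≤ Finsupp.mapDomain f D' b := by
  have h1 : 0 ≤ Finsupp.mapDomain f (D' - D) b :=
    Fermat.Agent.H18.rv_mapDomain_nonneg_fibre f (D' - D) b (fun a _ => by
      rw [Finsupp.sub_apply]
      have := h a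
      omega)
  rw [Finsupp.mapDomain_sub, Finsupp.sub_apply] at h1
  omega

/-- constants lie in `L(E')` for `E' ≥ 0` -/
theorem nu_const_mem_rr {K F : Type*} [Field K] [Field F] [Algebra K F] {E' : Divisor K F}
    (hE' : 0 ≤ E') (c : K) : algebraMap K F c ∈ riemannRochSpace E' := by
  rw [mem_riemannRochSpace_iff]
  intro v
  right
  rw [Fermat.Agent.H23.ord_algebraMap]
  have := Finsupp.le_def.mp hE' v
  rw [Finsupp.zero_apply] at this
  omega

/-- **UNIQ, core** : `L(E') = ℚ̄`. -/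
theorem nodal_rr_const (H : NodalRvHyp p G) (hp : p.Prime) (hA : A.LiesOverPrime p)
    [Nonempty ι] {Boo : Divisor (kRes A) Foo} {B0 : Divisor (kRes A) F0}
    (hB : NodalBase G Boo B0) (hprin : HasPrincipalDivisors Qb (FLb N))
    (E' : Divisor Qb (FLb N)) (hE' : 0 ≤ E')
    (hnode : ∀ P ν, G.r P = NPt.node ν → E' P = 0)
    (hoo : ∀ Q : Place (kRes A) Foo, Q ∉ Set.range G.nOo →
      Finsupp.mapDomain G.r E' (NPt.oo Q) ≤ Boo Q)
    (h0 : ∀ Q : Place (kRes A) F0, Q ∉ Set.range G.n0 →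
      Finsupp.mapDomain G.r E' (NPt.zero Q) ≤ B0 Q)
    (φ : FLb N) (hφ : φ ∈ riemannRochSpace E') :
    ∃ c : Qb, φ = algebraMap Qb (FLb N) c := by
  classical
  by_contra hcon
  push Not at hcon
  obtain ⟨α, β, hV, hV0, hα, hpair⟩ := H.lattice φ hcon
  set ψ : FLb N := algebraMap Qb (FLb N) α * φ + algebraMap Qb (FLb N) β with hψ
  -- `ψ ∈ L(E')`
  have hψmem : ψ ∈ riemannRochSpace E' := by
    have h1 : algebraMap Qb (FLb N) α * φ = α • φ := (Algebra.smul_def α φ).symm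
    rw [hψ, h1]
    exact Submodule.add_mem _ (Submodule.smul_mem _ α hφ) (nu_const_mem_rr hE' β)
  -- `ψ ≠ 0`
  have hψ0 : ψ ≠ 0 := by
    intro h
    apply hpair
    refine ⟨0, ?_, ?_⟩
    · have : (⟨ψ, hV⟩ : G.Voo) = 0 := Subtype.ext h
      rw [this, map_zero, map_zero]
    · have : (⟨ψ, hV0⟩ : G.V0) = 0 := Subtype.ext h
      rw [this, map_zero, map_zero]
  obtain ⟨D, hD, -⟩ := hprin.exists_divisor ψ hψ0
  have hDE : ∀ P, -E' P ≤ D P := by
    intro P
    rw [hD P]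
    rcases (mem_riemannRochSpace_iff.mp hψmem) P with h | h
    · exact absurd h hψ0
    · exact h
  have hD' : ∀ P, D P = P.ord (ψ ^ (p ^ 0) * 1) := by
    intro P
    rw [pow_zero, pow_one, mul_one]
    exact hD P
  have hnode' : ∀ P ν, G.r P = NPt.node ν → 0 ≤ D P := by
    intro P ν hP
    have := hDE P
    rw [hnode P ν hP] at this
    omega
  have hneg : ∀ x, -(Finsupp.mapDomain G.r E' x) ≤ Finsupp.mapDomain G.r D x := by
    intro x
    have h1 := nu_mapDomain_mono G.r (-E') D (fun a => by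
      rw [Finsupp.neg_apply]; exact hDE a) x
    rw [← Finsupp.mapDomain.addMonoidHom_apply, map_neg, Finsupp.mapDomain.addMonoidHom_apply,
      Finsupp.neg_apply] at h1
    exact h1
  have hoo' : ∀ Q : Place (kRes A) Foo, Q ∉ Set.range G.nOo →
      -(((p ^ 0 : ℕ) : ℤ) * Boo Q) ≤ Finsupp.mapDomain G.r D (NPt.oo Q) := by
    intro Q hQ
    have h1 := hneg (NPt.oo Q)
    have h2 := hoo Q hQ
    rw [pow_zero, Nat.cast_one, one_mul]
    omega
  have h0' : ∀ Q : Place (kRes A) F0, Q ∉ Set.range G.n0 →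
      -(((p ^ 0 : ℕ) : ℤ) * B0 Q) ≤ Finsupp.mapDomain G.r D (NPt.zero Q) := by
    intro Q hQ
    have h1 := hneg (NPt.zero Q)
    have h2 := h0 Q hQ
    rw [pow_zero, Nat.cast_one, one_mul]
    omega
  obtain ⟨c, κ, hcV, hcV0, hc0, hκ0, hredoo, hred0, -, -, -⟩ :=
    H.bal hp hA hB 0 ψ 1 hψ0 ⟨G.Voo.one_mem, map_one _⟩ ⟨G.V0.one_mem, map_one _⟩ D hD'
      hnode' hoo' h0'
  by_cases hcA : c ∈ A
  · -- `c` is a unit: the pair is the constant pair `κ / c`
    have hcoo : algebraMap Qb (FLb N) c ∈ G.Voo := (H.const_oo c).mpr hcA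
    have hcz : algebraMap Qb (FLb N) c ∈ G.V0 := (H.const_zero c).mpr hcA
    have e1 : (⟨algebraMap Qb (FLb N) c * ψ, hcV⟩ : G.Voo) =
        ⟨algebraMap Qb (FLb N) c, hcoo⟩ * ⟨ψ, hV⟩ := Subtype.ext rfl
    have e2 : (⟨algebraMap Qb (FLb N) c * ψ, hcV0⟩ : G.V0) =
        ⟨algebraMap Qb (FLb N) c, hcz⟩ * ⟨ψ, hV0⟩ := Subtype.ext rfl
    rw [e1, map_mul, H.red_const_oo ⟨c, hcA⟩ hcoo] at hredoo
    rw [e2, map_mul, H.red_const_zero ⟨c, hcA⟩ hcz] at hred0
    set ρ : kRes A := IsLocalRing.residue A ⟨c, hcA⟩ with hρ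
    have hρ0 : ρ ≠ 0 := by
      intro h
      rw [h, map_zero, zero_mul] at hredoo
      exact hκ0 ((map_eq_zero_iff _ (algebraMap (kRes A) Foo).injective).mp hredoo.symm)
    apply hpair
    refine ⟨ρ⁻¹ * κ, ?_, ?_⟩
    · have hρF : algebraMap (kRes A) Foo ρ ≠ 0 :=
        (map_ne_zero_iff _ (algebraMap (kRes A) Foo).injective).mpr hρ0
      rw [map_mul, map_inv₀, ← hredoo, ← mul_assoc, inv_mul_cancel₀ hρF, one_mul]
    · have hρF : algebraMap (kRes A) F0 ρ ≠ 0 :=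
        (map_ne_zero_iff _ (algebraMap (kRes A) F0).injective).mpr hρ0
      rw [map_mul, map_inv₀, ← hred0, ← mul_assoc, inv_mul_cancel₀ hρF, one_mul]
  · -- `c⁻¹ ∈ 𝔪` : both reductions vanish
    have hci : c⁻¹ ∈ A := (A.mem_or_inv_mem c).resolve_left hcA
    have hcinu : c⁻¹ ∈ A.nonunits := by
      rw [A.mem_nonunits_iff_or]
      right
      rw [inv_inv]
      exact hcA
    have hres : IsLocalRing.residue A ⟨c⁻¹, hci⟩ = 0 := by
      rw [IsLocalRing.residue_eq_zero_iff, ← A.coe_mem_nonunits_iff]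
      exact hcinu
    have hcioo : algebraMap Qb (FLb N) c⁻¹ ∈ G.Voo := (H.const_oo _).mpr hci
    have hciz : algebraMap Qb (FLb N) c⁻¹ ∈ G.V0 := (H.const_zero _).mpr hci
    have hmul : ψ = algebraMap Qb (FLb N) c⁻¹ * (algebraMap Qb (FLb N) c * ψ) := by
      rw [← mul_assoc, ← map_mul, inv_mul_cancel₀ hc0, map_one, one_mul]
    have e1 : (⟨ψ, hV⟩ : G.Voo) =
        ⟨algebraMap Qb (FLb N) c⁻¹, hcioo⟩ * ⟨algebraMap Qb (FLb N) c * ψ, hcV⟩ :=
      Subtype.ext hmul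
    have e2 : (⟨ψ, hV0⟩ : G.V0) =
        ⟨algebraMap Qb (FLb N) c⁻¹, hciz⟩ * ⟨algebraMap Qb (FLb N) c * ψ, hcV0⟩ :=
      Subtype.ext hmul
    apply hpair
    refine ⟨0, ?_, ?_⟩
    · rw [e1, map_mul, H.red_const_oo ⟨c⁻¹, hci⟩ hcioo, hres, map_zero, zero_mul]
    · rw [e2, map_mul, H.red_const_zero ⟨c⁻¹, hci⟩ hciz, hres, map_zero, zero_mul]

/-- **UNIQ** : linearly equivalent effective divisors reducing into `Ō` are equal. -/
theorem nodal_eq_of_principal (H : NodalRvHyp p G) (hp : p.Prime) (hA : A.LiesOverPrime p)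
    [Nonempty ι] {Boo : Divisor (kRes A) Foo} {B0 : Divisor (kRes A) F0}
    (hB : NodalBase G Boo B0) (hprin : HasPrincipalDivisors Qb (FLb N))
    (E E' : Divisor Qb (FLb N)) (hE : 0 ≤ E) (hE' : 0 ≤ E')
    (hnode : ∀ P ν, G.r P = NPt.node ν → E' P = 0)
    (hoo : ∀ Q : Place (kRes A) Foo, Q ∉ Set.range G.nOo →
      Finsupp.mapDomain G.r E' (NPt.oo Q) ≤ Boo Q)
    (h0 : ∀ Q : Place (kRes A) F0, Q ∉ Set.range G.n0 →
      Finsupp.mapDomain G.r E' (NPt.zero Q) ≤ B0 Q)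
    (h : E - E' ∈ Divisor.principal (K := Qb) (F := FLb N)) : E = E' := by
  obtain ⟨φ, hφ0, hφ⟩ := h
  have hmem : φ ∈ riemannRochSpace E' := by
    rw [mem_riemannRochSpace_iff]
    intro v
    right
    rw [← hφ v, Finsupp.sub_apply]
    have := Finsupp.le_def.mp hE v
    rw [Finsupp.zero_apply] at this
    omega
  obtain ⟨c, hc⟩ := nodal_rr_const H hp hA hB hprin E' hE' hnode hoo h0 φ hmem
  ext v
  have h1 := hφ v
  rw [hc, Fermat.Agent.H23.ord_algebraMap, Finsupp.sub_apply] at h1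
  omega

/-- **UNIQ, Jacobi form** : uniqueness of the representation `[∑ (P i - O i)]` with `P i` in the
disc of `O i`. -/
theorem nodal_rep_unique (H : NodalRvHyp p G) (hp : p.Prime) (hA : A.LiesOverPrime p)
    [Nonempty ι] {Boo : Divisor (kRes A) Foo} {B0 : Divisor (kRes A) F0}
    (hB : NodalBase G Boo B0) (hprin : HasPrincipalDivisors Qb (FLb N))
    {g : ℕ} (O : Fin g → Place Qb (FLb N)) (hOinj : Function.Injective (G.r ∘ O))
    (hOnode : ∀ i ν, G.r (O i) ≠ NPt.node ν)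
    (hOoo : ∀ Q : Place (kRes A) Foo, Q ∉ Set.range G.nOo →
      Finsupp.mapDomain G.r (∑ i, Finsupp.single (O i) (1 : ℤ)) (NPt.oo Q) ≤ Boo Q)
    (hO0 : ∀ Q : Place (kRes A) F0, Q ∉ Set.range G.n0 →
      Finsupp.mapDomain G.r (∑ i, Finsupp.single (O i) (1 : ℤ)) (NPt.zero Q) ≤ B0 Q)
    (P P' : Fin g → Place Qb (FLb N)) (hP : ∀ i, G.r (P i) = G.r (O i))
    (hP' : ∀ i, G.r (P' i) = G.r (O i))
    (h : (∑ i, (Finsupp.single (P i) (1 : ℤ) - Finsupp.single (O i) 1) :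
        Divisor Qb (FLb N)) -
      ∑ i, (Finsupp.single (P' i) (1 : ℤ) - Finsupp.single (O i) 1) ∈
        Divisor.principal (K := Qb) (F := FLb N)) : P = P' := by
  classical
  obtain ⟨E, hE⟩ : ∃ E : Divisor Qb (FLb N), E = ∑ i, Finsupp.single (P i) (1 : ℤ) := ⟨_, rfl⟩
  obtain ⟨E', hE'⟩ : ∃ E' : Divisor Qb (FLb N), E' = ∑ i, Finsupp.single (P' i) (1 : ℤ) :=
    ⟨_, rfl⟩
  have h2 : (∑ i, (Finsupp.single (P i) (1 : ℤ) - Finsupp.single (O i) 1) :
        Divisor Qb (FLb N)) -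
      ∑ i, (Finsupp.single (P' i) (1 : ℤ) - Finsupp.single (O i) 1) = E - E' := by
    rw [hE, hE', Fermat.Agent.H56.FF.sum_sub_eq, Fermat.Agent.H56.FF.sum_sub_eq]
    abel
  rw [h2] at h
  have hE0 : (0 : Divisor Qb (FLb N)) ≤ E := by
    rw [hE]; exact Fermat.Agent.H56.FF.sum_single_fin_nonneg P
  have hE'0 : (0 : Divisor Qb (FLb N)) ≤ E' := by
    rw [hE']; exact Fermat.Agent.H56.FF.sum_single_fin_nonneg P'
  have hrE' : Finsupp.mapDomain G.r E' =
      Finsupp.mapDomain G.r (∑ i, Finsupp.single (O i) (1 : ℤ)) := by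
    rw [hE', Fermat.Agent.H56.FF.mapDomain_sum_single,
      Fermat.Agent.H56.FF.mapDomain_sum_single]
    exact Finset.sum_congr rfl fun i _ => by rw [hP' i]
  have hnode : ∀ Q ν, G.r Q = NPt.node ν → E' Q = 0 := by
    intro Q ν hQ
    rw [hE', Finsupp.finsetSum_apply]
    refine Finset.sum_eq_zero fun i _ => ?_
    rw [Finsupp.single_apply, if_neg]
    intro hi
    apply hOnode i ν
    rw [← hP' i, hi]
    exact hQ
  have hEE' := nodal_eq_of_principal H hp hA hB hprin E E' hE0 hE'0 hnode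
    (fun Q hQ => by rw [hrE']; exact hOoo Q hQ) (fun Q hQ => by rw [hrE']; exact hO0 Q hQ) h
  rw [hE, hE'] at hEE'
  exact Fermat.Agent.H56.FF.eq_of_sum_single_eq G.r (G.r ∘ O) hOinj P P' hP hP' hEE'

end Fermat.Agent.H21.Ord

end
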