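import Fermat.Agent.H92.ORD.NodalJacDefs
import Fermat.Agent.H87.ORD.Move
import Fermat.Agent.H21.Ord.NodalUniq

/-!
# P-ORD, block (G-A), rows [REP] and [UNIQ] (helper21)

* `nodalRep : Fermat.Agent.H92.ORD.NodalRepStatement` : Jacobi inversion on the intrinsic `J1`
  (`nodalJ1 G`) : every class is `[∑ (P i - O i)]` with `P i` in the residue disc of `O i`
  (Riemann on the generic fibre + `NodalRvHyp.bal` with `n = 0`, `g = 1`);
* `nodalUniq : Fermat.Agent.H92.ORD.NodalUniqStatement` : uniqueness of the representation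
  (adapter of `Fermat.Agent.H21.Ord.nodal_rep_unique`);
* `mapDomain_baseDiv_oo`, `mapDomain_baseDiv_zero` : the push-forward of `∑ O i` on the smooth
  points of the two components is `baseOo G O`, `baseZero G O`.
-/

set_option autoImplicit false
set_option linter.unusedSectionVars false
set_option linter.style.haveILetI false
set_option maxHeartbeats 1600000

noncomputable section

open AlgebraicCurve ModularCurve

namespace Fermat.Agent.H21.Ord

open Fermat.Agent.H72.FF Fermat.Agent.H18.ORD Fermat.Agent.H27.ESD Fermat.Agent.H94.ORD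
open Fermat.Agent.H92.ORD Fermat.Agent.H87.ORD

variable {N : ℕ} {A : ValuationSubring Qb} {Foo F0 : Type} [Field Foo] [Field F0]
  [Algebra (kRes A) Foo] [Algebra (kRes A) F0] {ι : Type} {p : ℕ}
  {G : NodalData N A Foo F0 ι}

/-- the push-forward of `∑ O i` at a point of `C_∞` -/
theorem mapDomain_baseDiv_oo (G : NodalData N A Foo F0 ι) {g : ℕ}
    (O : Fin g → Place Qb (FLb N)) (Q : Place (kRes A) Foo) :
    Finsupp.mapDomain G.r (baseDiv O) (NPt.oo Q) = baseOo G O Q := by
  classical
  unfold baseDiv baseOo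
  rw [ordMove_mapDomain_base, Finsupp.finsetSum_apply, Finsupp.finsetSum_apply]
  refine Finset.sum_congr rfl fun i _ => ?_
  rcases h : G.r (O i) with Q' | Q' | ν
  · simp only [Finsupp.single_apply]
    by_cases hQ : Q' = Q
    · rw [if_pos hQ, if_pos (by rw [hQ])]
    · rw [if_neg hQ, if_neg (fun h' => hQ (NPt.oo.inj h'))]
  · simp only [Finsupp.single_apply, Finsupp.coe_zero, Pi.zero_apply]
    rw [if_neg (fun h' => by cases h')]
  · simp only [Finsupp.single_apply, Finsupp.coe_zero, Pi.zero_apply]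
    rw [if_neg (fun h' => by cases h')]

/-- the push-forward of `∑ O i` at a point of `C_0` -/
theorem mapDomain_baseDiv_zero (G : NodalData N A Foo F0 ι) {g : ℕ}
    (O : Fin g → Place Qb (FLb N)) (Q : Place (kRes A) F0) :
    Finsupp.mapDomain G.r (baseDiv O) (NPt.zero Q) = baseZero G O Q := by
  classical
  unfold baseDiv baseZero
  rw [ordMove_mapDomain_base, Finsupp.finsetSum_apply, Finsupp.finsetSum_apply]
  refine Finset.sum_congr rfl fun i _ => ?_
  rcases h : G.r (O i) with Q' | Q' | ν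
  · simp only [Finsupp.single_apply, Finsupp.coe_zero, Pi.zero_apply]
    rw [if_neg (fun h' => by cases h')]
  · simp only [Finsupp.single_apply]
    by_cases hQ : Q' = Q
    · rw [if_pos hQ, if_pos (by rw [hQ])]
    · rw [if_neg hQ, if_neg (fun h' => hQ (NPt.zero.inj h'))]
  · simp only [Finsupp.single_apply, Finsupp.coe_zero, Pi.zero_apply]
    rw [if_neg (fun h' => by cases h')]

/-- **[REP], self-contained form.** -/
theorem nodal_rep (H : NodalRvHyp p G) (hp : p.Prime) (hA : A.LiesOverPrime p) [Nonempty ι]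
    {Boo : Divisor (kRes A) Foo} {B0 : Divisor (kRes A) F0} (hB : NodalBase G Boo B0)
    {g gN : ℕ} (R : RiemannPackage Qb (FLb N) gN) (hg : gN ≤ g)
    (O : Fin g → Place Qb (FLb N)) (hO : Function.Injective fun i => G.r (O i))
    (hOsm : ∀ i ν, G.r (O i) ≠ NPt.node ν)
    (hBoo : ∀ Q : Place (kRes A) Foo, Q ∉ Set.range G.nOo →
      Finsupp.mapDomain G.r (baseDiv O) (NPt.oo Q) ≤ Boo Q)
    (hB0 : ∀ Q : Place (kRes A) F0, Q ∉ Set.range G.n0 →
      Finsupp.mapDomain G.r (baseDiv O) (NPt.zero Q) ≤ B0 Q)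
    (D : Divisor Qb (FLb N)) (hD0 : Divisor.degree D = 0)
    (hDnode : ∀ P ν, G.r P = NPt.node ν → D P = 0)
    (hDmap : Finsupp.mapDomain G.r D = 0) :
    ∃ (P : Fin g → Place Qb (FLb N)) (f : FLb N), f ≠ 0 ∧ (∀ i, G.r (P i) = G.r (O i)) ∧
      ∀ v : Place Qb (FLb N), v.ord f = baseDiv P v - baseDiv O v - D v := by
  classical
  haveI := R.principal
  -- Riemann on the generic fibre
  obtain ⟨f, hf, hfL⟩ := exists_section_of_genus_le R (D + baseDiv O) (by
    rw [map_add, hD0, zero_add, degree_baseDiv R.deg_one]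
    exact_mod_cast hg)
  obtain ⟨Ef, hEf, -⟩ := HasPrincipalDivisors.exists_divisor (K := Qb) f hf
  set E : Divisor Qb (FLb N) := Ef + D + baseDiv O with hEdef
  have hE : ∀ a, 0 ≤ E a := by
    intro a
    have := ((mem_riemannRochSpace_iff.mp hfL) a).resolve_left hf
    rw [hEdef, Finsupp.add_apply, Finsupp.add_apply, hEf a]
    rw [Finsupp.add_apply] at this
    omega
  have hOnode : ∀ a ν, G.r a = NPt.node ν → baseDiv O a = 0 := by
    intro a ν ha
    refine ordMove_base_apply_of_notMem O a fun i hi => ?_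
    exact hOsm i ν (hi ▸ ha)
  have hEfapp : ∀ a, Ef a = E a - D a - baseDiv O a := by
    intro a
    rw [hEdef, Finsupp.add_apply, Finsupp.add_apply]
    ring
  have hD : ∀ a : Place Qb (FLb N), Ef a = a.ord (f ^ (p ^ 0) * 1) := by
    intro a
    rw [pow_zero, pow_one, mul_one]
    exact hEf a
  have hmapEf : ∀ x, Finsupp.mapDomain G.r Ef x =
      Finsupp.mapDomain G.r E x - Finsupp.mapDomain G.r (baseDiv O) x := by
    intro x
    have h1 : Finsupp.mapDomain G.r E =
        Finsupp.mapDomain G.r Ef + Finsupp.mapDomain G.r D +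
          Finsupp.mapDomain G.r (baseDiv O) := by
      rw [hEdef, Finsupp.mapDomain_add, Finsupp.mapDomain_add]
    rw [h1, hDmap, add_zero, Finsupp.add_apply]
    ring
  -- BAL
  obtain ⟨-, -, -, -, -, -, -, -, hnodeD, hooD, h0D⟩ :=
    H.bal hp hA hB 0 f 1 hf ⟨G.Voo.one_mem, map_one _⟩ ⟨G.V0.one_mem, map_one _⟩ Ef hD
      (fun a ν ha => by
        rw [hEfapp a, hOnode a ν ha, hDnode a ν ha, sub_zero, sub_zero]
        exact hE a)
      (fun Q hQ => by
        rw [hmapEf, pow_zero, Nat.cast_one, one_mul]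
        have h1 := ordMove_mapDomain_nonneg G.r E hE (NPt.oo Q)
        have h2 := hBoo Q hQ
        omega)
      (fun Q hQ => by
        rw [hmapEf, pow_zero, Nat.cast_one, one_mul]
        have h1 := ordMove_mapDomain_nonneg G.r E hE (NPt.zero Q)
        have h2 := hB0 Q hQ
        omega)
  -- equality of the push-forwards
  have hmap : Finsupp.mapDomain G.r E = Finsupp.mapDomain G.r (baseDiv O) := by
    ext x
    rcases x with Q | Q | ν
    · by_cases hQ : Q ∈ Set.range G.nOo
      · rw [ordMove_mapDomain_eq_zero G.r E _ (fun a ha => absurd hQ (H.r_oo a Q ha)),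
          ordMove_mapDomain_eq_zero G.r (baseDiv O) _ (fun a ha => absurd hQ (H.r_oo a Q ha))]
      · have h := hooD Q hQ
        rw [hmapEf] at h
        exact sub_eq_zero.mp h
    · by_cases hQ : Q ∈ Set.range G.n0
      · rw [ordMove_mapDomain_eq_zero G.r E _ (fun a ha => absurd hQ (H.r_zero a Q ha)),
          ordMove_mapDomain_eq_zero G.r (baseDiv O) _
            (fun a ha => absurd hQ (H.r_zero a Q ha))]
      · have h := h0D Q hQ
        rw [hmapEf] at h
        exact sub_eq_zero.mp h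
    · rw [ordMove_mapDomain_eq_zero G.r E _ (fun a ha => by
          have h := hnodeD a ν ha
          rw [hEfapp a, hOnode a ν ha, hDnode a ν ha, sub_zero, sub_zero] at h
          exact h),
        ordMove_mapDomain_eq_zero G.r (baseDiv O) _ (fun a ha => hOnode a ν ha)]
  -- the points
  obtain ⟨P, hP, hEP⟩ := ordMove_exists_points G.r E hE O hO hmap
  refine ⟨P, f, hf, hP, fun v => ?_⟩
  have h1 : E v = baseDiv P v := by rw [hEP]; rfl
  rw [← h1, hEdef, Finsupp.add_apply, Finsupp.add_apply, hEf v]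
  ring

/-- `∑ (P i - O i) = ∑ P i - ∑ O i` -/
theorem sum_sub_eq_baseDiv {g : ℕ} (P O : Fin g → Place Qb (FLb N)) :
    (∑ i, (Finsupp.single (P i) (1 : ℤ) - Finsupp.single (O i) 1) : Divisor Qb (FLb N)) =
      baseDiv P - baseDiv O :=
  Fermat.Agent.H56.FF.sum_sub_eq P O

/-- **[REP]** (row 1132). -/
theorem nodalRep : NodalRepStatement := by
  intro N p A Foo F0 _ _ _ _ ι G g hS O t hsys c hc
  haveI := hS.node
  obtain ⟨D, rfl, hDnode, hDmap⟩ := hc
  obtain ⟨P, f, hf, hP, hord⟩ := nodal_rep hS.rv hS.prime hS.liesOver hsys.base hS.pkgL le_rfl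
    O hsys.inj (fun i => (hsys.coord i).smooth)
    (fun Q _ => le_of_eq (mapDomain_baseDiv_oo G O Q))
    (fun Q _ => le_of_eq (mapDomain_baseDiv_zero G O Q))
    (D : Divisor Qb (FLb N)) D.2 hDnode hDmap
  refine ⟨P, ⟨∑ i, (Finsupp.single (P i) (1 : ℤ) - Finsupp.single (O i) 1),
    Fermat.Agent.H56.FF.degree_sum_sub hS.pkgL.deg_one P O⟩, hP, rfl, ?_⟩
  rw [Fermat.Agent.H56.FF.pic0_mk_eq_iff]
  refine ⟨f⁻¹, inv_ne_zero hf, fun v => ?_⟩
  rw [v.ord_inv, hord v, Finsupp.sub_apply]
  show (D : Divisor Qb (FLb N)) v -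
    (∑ i, (Finsupp.single (P i) (1 : ℤ) - Finsupp.single (O i) 1) : Divisor Qb (FLb N)) v = _
  rw [sum_sub_eq_baseDiv, Finsupp.sub_apply]
  ring

/-- **[UNIQ]** (row 1133), adapter of `nodal_rep_unique`. -/
theorem nodalUniq : NodalUniqStatement := by
  intro N p A Foo F0 _ _ _ _ ι G g hS O t hsys c P P' hP hP'
  haveI := hS.node
  obtain ⟨D, hPr, hD, rfl⟩ := hP
  obtain ⟨D', hPr', hD', hc⟩ := hP'
  have h1 := (Fermat.Agent.H56.FF.pic0_mk_eq_iff _ _).mp hc
  rw [hD, hD'] at h1
  exact nodal_rep_unique hS.rv hS.prime hS.liesOver hsys.base hS.pkgL.principal O hsys.inj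
    (fun i => (hsys.coord i).smooth)
    (fun Q _ => le_of_eq (mapDomain_baseDiv_oo G O Q))
    (fun Q _ => le_of_eq (mapDomain_baseDiv_zero G O Q)) P P' hPr hPr' h1

end Fermat.Agent.H21.Ord

end
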