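import Fermat.Agent.H18.ORD.NodalBal

/-!
# P-ORD : a nodal reduction has finitely many nodes (helper21)

ABSTRACT: for every `NodalData` satisfying `NodalRvHyp`, the type `ι` of nodes is finite, as soon
as nonzero functions have finitely many zeros and poles (on the generic fibre and on both
components).

Proof.  The two Gauss rings are different (`ne`), so by normalisation (`norm_oo`, `norm_zero`)
there are units `u` of `V_∞`, `w` of `V_0` with `w = c u` and `c ∉ A` or `c⁻¹ ∉ A`.  By the slope
inequality (M3) `node_le`, at every node `ν` without pole of `u` over it the reduction `red_∞ u`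
vanishes at the branch `n_∞ ν` (if `c ∉ A`), resp. `red_0 w` vanishes at `n_0 ν` (if `c⁻¹ ∉ A`).
The branches are injective, a nonzero function has finitely many zeros, and only finitely many
nodes carry a pole of `u`.

* `finite_nodes` : with explicit finiteness hypotheses;
* `finite_nodes_of_principal` : from `HasPrincipalDivisors` on the three function fields.
-/

set_option autoImplicit false
set_option linter.unusedSectionVars false
set_option linter.style.haveILetI false

noncomputable section

open AlgebraicCurve ModularCurve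

namespace Fermat.Agent.H21.Ord

open Fermat.Agent.H72.FF Fermat.Agent.H18.ORD

variable {N p : ℕ} {A : ValuationSubring Qb} {Foo F0 : Type} [Field Foo] [Field F0]
  [Algebra (kRes A) Foo] [Algebra (kRes A) F0] {ι : Type} {G : NodalData N A Foo F0 ι}

/-- the nodes carrying a zero or pole of a nonzero function are finite in number -/
theorem fn_finite_nodes_over (G : NodalData N A Foo F0 ι) (f : FLb N)
    (hf : {P : Place Qb (FLb N) | P.ord f ≠ 0}.Finite) :
    {ν : ι | ∃ P, G.r P = NPt.node ν ∧ P.ord f ≠ 0}.Finite := by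
  classical
  let φ : Place Qb (FLb N) → Option ι := fun P =>
    match G.r P with
    | NPt.node ν => some ν
    | _ => none
  have hsub : {ν : ι | ∃ P, G.r P = NPt.node ν ∧ P.ord f ≠ 0} ⊆
      some ⁻¹' (φ '' {P : Place Qb (FLb N) | P.ord f ≠ 0}) := by
    rintro ν ⟨P, hP, hord⟩
    refine ⟨P, hord, ?_⟩
    show (match G.r P with
      | NPt.node ν => some ν
      | _ => none) = some ν
    rw [hP]
  exact Set.Finite.subset
    (Set.Finite.preimage (Option.some_injective ι).injOn (hf.image φ)) hsub

/-- **A nodal reduction has finitely many nodes.** -/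
theorem finite_nodes (H : NodalRvHyp p G) (hp : p.Prime) (hA : A.LiesOverPrime p)
    (hL : ∀ f : FLb N, f ≠ 0 → {P : Place Qb (FLb N) | P.ord f ≠ 0}.Finite)
    (hoo : ∀ x : Foo, x ≠ 0 → {Q : Place (kRes A) Foo | Q.ord x ≠ 0}.Finite)
    (h0 : ∀ x : F0, x ≠ 0 → {Q : Place (kRes A) F0 | Q.ord x ≠ 0}.Finite) : Finite ι := by
  classical
  have hpQ : (p : Qb) ≠ 0 := by exact_mod_cast hp.ne_zero
  have hpA : (p : Qb) ∈ A := A.nonunits_subset hA
  -- a pair of normalisations with a non-integral comparison constant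
  obtain ⟨u, w, c, hu, hw, hwu, hc⟩ : ∃ (u : G.Voo) (w : G.V0) (c : Qb), G.redOo u ≠ 0 ∧
      G.red0 w ≠ 0 ∧ (w : FLb N) = algebraMap Qb (FLb N) c * (u : FLb N) ∧
      (c ∉ A ∨ c⁻¹ ∉ A) := by
    by_contra hno
    apply H.ne
    -- every comparison constant is a unit of `A`, so the two rings coincide
    have key : ∀ (u : G.Voo) (w : G.V0) (c : Qb), G.redOo u ≠ 0 → G.red0 w ≠ 0 →
        (w : FLb N) = algebraMap Qb (FLb N) c * (u : FLb N) → c ∈ A ∧ c⁻¹ ∈ A := by
      intro u w c hu hw hwu
      by_contra hcon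
      apply hno
      refine ⟨u, w, c, hu, hw, hwu, ?_⟩
      by_cases h1 : c ∈ A
      · right
        intro h2
        exact hcon ⟨h1, h2⟩
      · exact Or.inl h1
    ext f
    by_cases hf0 : f = 0
    · rw [hf0]
      exact ⟨fun _ => G.V0.zero_mem, fun _ => G.Voo.zero_mem⟩
    obtain ⟨c₁, u, hc₁, hu, hfu⟩ := H.norm_oo f hf0
    have hu0 : (u : FLb N) ≠ 0 := by
      intro h
      apply hu
      have : u = 0 := Subtype.ext h
      rw [this, map_zero]
    obtain ⟨c₂, w, hc₂, hw, huw⟩ := H.norm_zero (u : FLb N) hu0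
    have hwu : (w : FLb N) = algebraMap Qb (FLb N) c₂⁻¹ * (u : FLb N) := by
      rw [huw, ← mul_assoc, ← map_mul, inv_mul_cancel₀ hc₂, map_one, one_mul]
    obtain ⟨hk1, hk2⟩ := key u w c₂⁻¹ hu hw hwu
    rw [inv_inv] at hk2
    have hui : (u : FLb N)⁻¹ ∈ G.Voo := H.inv_oo u hu
    have hwi : (w : FLb N)⁻¹ ∈ G.V0 := H.inv_zero w hw
    have hfw : f = algebraMap Qb (FLb N) (c₁ * c₂) * (w : FLb N) := by
      rw [hfu, huw, map_mul, mul_assoc]
    constructor
    · intro hf
      have h1 : algebraMap Qb (FLb N) c₁ ∈ G.Voo := by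
        have : algebraMap Qb (FLb N) c₁ = f * (u : FLb N)⁻¹ := by
          rw [hfu, mul_assoc, mul_inv_cancel₀ hu0, mul_one]
        rw [this]
        exact G.Voo.mul_mem hf hui
      have h2 : c₁ ∈ A := (H.const_oo c₁).mp h1
      rw [hfw]
      exact G.V0.mul_mem ((H.const_zero _).mpr (A.mul_mem _ _ h2 hk2)) w.2
    · intro hf
      have hw0 : (w : FLb N) ≠ 0 := by
        intro h
        apply hw
        have : w = 0 := Subtype.ext h
        rw [this, map_zero]
      have h1 : algebraMap Qb (FLb N) (c₁ * c₂) ∈ G.V0 := by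
        have : algebraMap Qb (FLb N) (c₁ * c₂) = f * (w : FLb N)⁻¹ := by
          rw [hfw, mul_assoc, mul_inv_cancel₀ hw0, mul_one]
        rw [this]
        exact G.V0.mul_mem hf hwi
      have h2 : c₁ * c₂ ∈ A := (H.const_zero _).mp h1
      have h3 : c₁ ∈ A := by
        have : c₁ = c₁ * c₂ * c₂⁻¹ := by
          rw [mul_assoc, mul_inv_cancel₀ hc₂, mul_one]
        rw [this]
        exact A.mul_mem _ _ h2 hk1
      rw [hfu]
      exact G.Voo.mul_mem ((H.const_oo _).mpr h3) u.2
  have hu0 : (u : FLb N) ≠ 0 := by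
    intro h
    apply hu
    have : u = 0 := Subtype.ext h
    rw [this, map_zero]
  have hc0 : c ≠ 0 := by
    rintro rfl
    rw [map_zero, zero_mul] at hwu
    apply hw
    have : w = 0 := Subtype.ext hwu
    rw [this, map_zero]
  -- the nodes carrying a pole of `u`
  have hbad := fn_finite_nodes_over G (u : FLb N) (hL _ hu0)
  -- the other nodes
  have hgood : {ν : ι | ∀ P, G.r P = NPt.node ν → 0 ≤ P.ord (u : FLb N)}.Finite := by
    rcases hc with hc | hc
    · -- `red_∞ u` vanishes at the branches on `C_∞`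
      have hsub : {ν : ι | ∀ P, G.r P = NPt.node ν → 0 ≤ P.ord (u : FLb N)} ⊆
          G.nOo ⁻¹' {Q : Place (kRes A) Foo | Q.ord (G.redOo u) ≠ 0} := by
        intro ν hν
        have h1 := (H.node_le u w c hu hw hwu ν hν).1
        have h2 := na_one_le_of_not_mem hpA hpQ hc h1
        show (G.nOo ν).ord (G.redOo u) ≠ 0
        omega
      exact Set.Finite.subset (Set.Finite.preimage H.nOo_inj.injOn (hoo _ hu)) hsub
    · -- `red_0 w` vanishes at the branches on `C_0`
      have hsub : {ν : ι | ∀ P, G.r P = NPt.node ν → 0 ≤ P.ord (u : FLb N)} ⊆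
          G.n0 ⁻¹' {Q : Place (kRes A) F0 | Q.ord (G.red0 w) ≠ 0} := by
        intro ν hν
        have h1 := (H.node_le u w c hu hw hwu ν hν).2
        have h2 := na_one_le_of_not_mem hpA hpQ hc h1
        show (G.n0 ν).ord (G.red0 w) ≠ 0
        omega
      exact Set.Finite.subset (Set.Finite.preimage H.n0_inj.injOn (h0 _ hw)) hsub
  have huniv : (Set.univ : Set ι) ⊆
      {ν : ι | ∀ P, G.r P = NPt.node ν → 0 ≤ P.ord (u : FLb N)} ∪
        {ν : ι | ∃ P, G.r P = NPt.node ν ∧ P.ord (u : FLb N) ≠ 0} := by
    intro ν _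
    by_cases h : ∀ P, G.r P = NPt.node ν → 0 ≤ P.ord (u : FLb N)
    · exact Or.inl h
    · right
      by_contra hcon
      apply h
      intro P hP
      by_contra hlt
      exact hcon ⟨P, hP, by omega⟩
  exact Set.finite_univ_iff.mp (Set.Finite.subset (hgood.union hbad) huniv)

/-- finitely many zeros and poles from principal divisors -/
theorem fn_finite_of_principal {K F : Type*} [Field K] [Field F] [Algebra K F]
    (h : HasPrincipalDivisors K F) (f : F) (hf : f ≠ 0) :
    {P : Place K F | P.ord f ≠ 0}.Finite := by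
  obtain ⟨D, hD, -⟩ := h.exists_divisor f hf
  refine Set.Finite.subset D.support.finite_toSet ?_
  intro P hP
  have : P.ord f ≠ 0 := hP
  rw [Finset.mem_coe, Finsupp.mem_support_iff, hD P]
  exact this

/-- **A nodal reduction has finitely many nodes** (principal divisors on the three function
fields). -/
theorem finite_nodes_of_principal (H : NodalRvHyp p G) (hp : p.Prime)
    (hA : A.LiesOverPrime p) (hL : HasPrincipalDivisors Qb (FLb N))
    (hoo : HasPrincipalDivisors (kRes A) Foo) (h0 : HasPrincipalDivisors (kRes A) F0) :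
    Finite ι :=
  finite_nodes H hp hA (fn_finite_of_principal hL) (fn_finite_of_principal hoo)
    (fn_finite_of_principal h0)

end Fermat.Agent.H21.Ord
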