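import Fermat.Agent.H23.Final3
import Fermat.Agent.H82.CuspDatum
import Fermat.Agent.H56.RH.HurwitzFinal
import Fermat.Agent.H19.RH.FibreSum
import Fermat.Agent.H58.RR.Modular
import Fermat.Agent.H58.RR.ESD

/-!
# The Riemann genus of `ℚ̄(X₀(N))` is given by the genus formula (helper21)

`genusFF_eq_genusFormula N : (genusFF ℚ̄ ℚ̄(X₀(N)) : ℚ) = genusFormula N`, where
`genusFF = dim H¹(O)` is the genus of the Riemann packages (`Fermat.Agent.H27.ESD.RiemannPackage`)
used by P-FF / P-ORD.

Proof: Hurwitz for the Riemann genus (`Fermat.Agent.H56.RH.hurwitz`, tame case = equality),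
decomposed along the fibres of `j` (`Fermat.Agent.H19.rh_finsum_fibres`), and the local counting
of P-GENUS (`Fermat.Agent.H85.localCounting`) with the modular local data
(`Fermat.Agent.H23.ModularDataStatement`).
-/

set_option autoImplicit false
set_option linter.unusedSectionVars false
set_option linter.style.haveILetI false
set_option maxHeartbeats 1600000

noncomputable section

open AlgebraicCurve IntermediateField

namespace Fermat.Agent.H21.Ord

open Fermat.Agent.H23 Fermat.Agent.H19
open Fermat.Agent.H27.ESD (ramIdx RiemannPackage)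

section Abstract

variable {K F : Type} [Field K] [Field F] [Algebra K F] [IsAlgClosed K] [CharZero K]

/-- the number of orbits of the identity -/
theorem gf_numOrbits_one (I : Type) [Fintype I] :
    numOrbits (1 : Equiv.Perm I) = Fintype.card I := by
  unfold numOrbits
  rw [← Nat.card_eq_fintype_card]
  refine Nat.card_congr (Equiv.symm ?_)
  refine Equiv.ofBijective (Quotient.mk _) ⟨?_, Quotient.mk_surjective⟩
  intro i j hij
  have := Quotient.exact hij
  obtain ⟨k, hk⟩ := this
  simpa using hk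

/-- the counting package over the zeros of a single `y` -/
theorem gf_point (x : F) (hfin : FiniteDimensional K⟮x⟯ F)
    (y : F) (hy : Transcendental K y) (hyx : K⟮y⟯ = K⟮x⟯)
    (L : LocalDatum K F y) (hcard : Fintype.card L.I = Module.finrank K⟮x⟯ F) :
    (∀ v : Place K F, v.deg = 1) ∧
    {v : Place K F | 0 < v.ord y}.Finite ∧
    ∑ᶠ v ∈ {v : Place K F | 0 < v.ord y}, (v.ord y - 1)
      = (Module.finrank K⟮x⟯ F : ℤ) - numOrbits L.ε := by
  have hfiny : FiniteDimensional K⟮y⟯ F := by rw [hyx]; exact hfin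
  have hrank : Module.finrank K⟮y⟯ F = Module.finrank K⟮x⟯ F := by rw [hyx]
  obtain ⟨hdeg, hVfin, hsum⟩ := Fermat.Agent.H29.fundamentalIdentity K F y hy hfiny
  rw [hrank] at hsum
  have hsum' : ∑ᶠ v ∈ {v : Place K F | 0 < v.ord y}, v.ord y = (Fintype.card L.I : ℤ) := by
    rw [hsum, hcard]
  obtain ⟨-, hcount⟩ := Fermat.Agent.H85.localCounting K F y L hdeg hVfin hsum'
  rw [hcard] at hcount
  exact ⟨hdeg, hVfin, hcount⟩

/-- **Hurwitz count for the Riemann genus** from local uniformisation data. -/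
theorem gf_hurwitz_count (x : F) (hx : Transcendental K x) (hfin : FiniteDimensional K⟮x⟯ F)
    (S : Finset K) (L : ∀ a : K, LocalDatum K F (x - algebraMap K F a))
    (Linf : LocalDatum K F x⁻¹)
    (hcard : ∀ a, Fintype.card (L a).I = Module.finrank K⟮x⟯ F)
    (hcardinf : Fintype.card Linf.I = Module.finrank K⟮x⟯ F)
    (hS : ∀ a, a ∉ S → (L a).ε = 1)
    (g : ℕ) (pkg : RiemannPackage K F g) :
    2 * (g : ℤ) - 2 + 2 * (Module.finrank K⟮x⟯ F : ℤ) =
      ∑ a ∈ S, ((Module.finrank K⟮x⟯ F : ℤ) - numOrbits (L a).ε) +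
        ((Module.finrank K⟮x⟯ F : ℤ) - numOrbits Linf.ε) := by
  classical
  set n : ℤ := (Module.finrank K⟮x⟯ F : ℤ) with hn
  have P := fun a : K => gf_point x hfin (x - algebraMap K F a)
    (transcendental_sub_const hx a) (adjoin_sub_const x a) (L a) (hcard a)
  have Pinf := gf_point x hfin x⁻¹ (transcendental_inv hx) (adjoin_inv x) Linf hcardinf
  have hdeg : ∀ v : Place K F, v.deg = 1 := Pinf.1
  -- Hurwitz, tame case
  haveI : Algebra.IsSeparable (IntermediateField.adjoin K {x}) F :=
    Algebra.IsAlgebraic.isSeparable_of_perfectField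
  obtain ⟨-, -, heq⟩ := Fermat.Agent.H56.RH.hurwitz K F x hx hfin inferInstance g pkg
  have htame : ∀ v : Place K F, ((ramIdx x v : ℕ) : K) ≠ 0 := fun v =>
    Nat.cast_ne_zero.mpr (rh_ramIdx_pos v (hdeg v) hx).ne'
  have hH := heq htame
  -- the fibres
  have hfibre : ∀ c : K, rhFibre (K := K) x c =
      {v : Place K F | 0 < v.ord (x - algebraMap K F c)} := fun c => rfl
  have hfibreInf : rhFibreInf K x = {v : Place K F | 0 < v.ord x⁻¹} := by
    ext v
    simp only [mem_rhFibreInf, Set.mem_setOf_eq, Place.ord_inv]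
    omega
  have hfinF : ∀ c : K, (rhFibre (K := K) x c).Finite := fun c => (P c).2.1
  have hfinInf : (rhFibreInf K x).Finite := by
    rw [hfibreInf]
    exact Pinf.2.1
  -- unramified outside `S`
  have hC : ∀ (c : K) (v : Place K F), 0 < v.ord (x - algebraMap K F c) →
      1 < ramIdx x v → c ∈ S := by
    intro c v hv hram
    by_contra hcS
    have hsum := (P c).2.2
    rw [hS c hcS, gf_numOrbits_one, hcard c, sub_self,
      finsum_mem_eq_finite_toFinset_sum _ (P c).2.1] at hsum
    have hnonneg : ∀ w ∈ (P c).2.1.toFinset, 0 ≤ w.ord (x - algebraMap K F c) - 1 := by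
      intro w hw
      have : 0 < w.ord (x - algebraMap K F c) := by simpa using hw
      omega
    have hz := (Finset.sum_eq_zero_iff_of_nonneg hnonneg).mp hsum v (by simpa using hv)
    have h1 := rh_ramIdx_of_ord_sub_pos' v hv
    omega
  obtain ⟨-, hsumF⟩ := rh_finsum_fibres hdeg hx hfinF hfinInf S hC
  -- the fibre sums
  have hA : ∀ c : K, ∑ᶠ v ∈ rhFibre (K := K) x c, ((ramIdx x v : ℤ) - 1) =
      n - numOrbits (L c).ε := by
    intro c
    rw [← (P c).2.2]
    refine finsum_mem_congr rfl fun v hv => ?_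
    rw [rh_ramIdx_of_ord_sub_pos' v hv]
  have hB : ∑ᶠ v ∈ rhFibreInf K x, ((ramIdx x v : ℤ) - 1) = n - numOrbits Linf.ε := by
    rw [← Pinf.2.2, hfibreInf]
    refine finsum_mem_congr rfl fun v hv => ?_
    have hv' : v.ord x < 0 := by
      have : 0 < v.ord x⁻¹ := hv
      rw [Place.ord_inv] at this
      omega
    rw [rh_ramIdx_of_ord_neg' v hv', Place.ord_inv]
  rw [← hH, hsumF, hB, Finset.sum_congr rfl fun c _ => hA c]

end Abstract

/-! ### The modular case -/

open ModularCurve

/-- the modular local data (P-GENUS), unconditional -/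
theorem gf_modularData (N : ℕ) [NeZero N] : ModularDataStatement N :=
  modularData_of_packages
    (analyticStatement_of_cusp N
      (Fermat.Agent.H82.analytic_cusp N Fermat.Agent.H33.merGerm_statement
        (Fermat.Agent.H44.core N)))
    (degreeStatement_holds N) (Fermat.Agent.H85.cosetCombinatorics N)

/-- **The Riemann genus of `ℚ̄(X₀(N))` is given by the genus formula.** -/
theorem genusFF_eq_genusFormula (N : ℕ) [NeZero N] :
    (genusFF (AlgebraicClosure ℚ) ↥(modularFunctionFieldBar N) : ℚ) = genusFormula N := by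
  classical
  obtain ⟨x, hx, hfin, hdeg, a₀, a₁, ha, L, Linf, hL, hLinf, hε, h3, h2, hc⟩ :=
    gf_modularData N
  have hS : ∀ a, a ∉ ({a₀, a₁} : Finset (AlgebraicClosure ℚ)) → (L a).ε = 1 := by
    intro a haS
    simp only [Finset.mem_insert, Finset.mem_singleton, not_or] at haS
    exact hε a haS.1 haS.2
  have pkg : RiemannPackage (AlgebraicClosure ℚ) ↥(modularFunctionFieldBar N)
      (genusFF (AlgebraicClosure ℚ) ↥(modularFunctionFieldBar N)) :=
    Fermat.Agent.H58.riemannPackage_of_rrHyp (Fermat.Agent.H58.rrHyp_modularFunctionFieldBar N)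
  have key := gf_hurwitz_count x hx hfin {a₀, a₁} L Linf (fun a => (hL a).trans hdeg.symm)
    (hLinf.trans hdeg.symm) hS _ pkg
  rw [Finset.sum_pair ha, hdeg] at key
  have h3' : (3 : ℚ) * numOrbits (L a₀).ε = dedekindPsi N + 2 * nuThree N := by
    exact_mod_cast h3
  have h2' : (2 : ℚ) * numOrbits (L a₁).ε = dedekindPsi N + nuTwo N := by
    exact_mod_cast h2
  have hc' : (numOrbits Linf.ε : ℚ) = cuspCount N := by exact_mod_cast hc
  have keyQ : (2 : ℚ) * (genusFF (AlgebraicClosure ℚ) ↥(modularFunctionFieldBar N) : ℚ) - 2 +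
      2 * (dedekindPsi N : ℚ) =
      ((dedekindPsi N : ℚ) - numOrbits (L a₀).ε) + ((dedekindPsi N : ℚ) - numOrbits (L a₁).ε) +
        ((dedekindPsi N : ℚ) - numOrbits Linf.ε) := by
    exact_mod_cast key
  unfold genusFormula
  linarith

end Fermat.Agent.H21.Ord
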