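import Fermat.Prelude.Def_ModularCurve_GenusNumerics
import Fermat.Agent.H26.DedekindPsi

/-!
# Numerics of the genus formula at the levels `M` and `M p` (helper21)

For `p` prime, `p ∤ M`, `4 ∣ M`:

* `gn_nuTwo_eq_zero`, `gn_nuThree_eq_zero` : no elliptic points at levels divisible by `4`;
* `gn_cuspCount_mul_prime` : `cuspCount (M p) = 2 cuspCount M`;
* `genusFormula_mul_prime` : `genusFormula (M p) + 1 = 2 genusFormula M + (p - 1) ψ(M) / 12`;
* `genusFormula_gap` : `2 genusFormula M < genusFormula (M p) + 1`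
  (the number of supersingular points `(p - 1) ψ(M) / 12` is positive).
-/

set_option autoImplicit false

namespace Fermat.Agent.H21.Ord

open ModularCurve

/-- no solution of `x² + 1 = 0` modulo a multiple of `4` -/
theorem gn_nuTwo_eq_zero {N : ℕ} (h4 : 4 ∣ N) : nuTwo N = 0 := by
  unfold nuTwo
  haveI : IsEmpty {x : ZMod N // x ^ 2 + 1 = 0} := by
    refine ⟨fun ⟨x, hx⟩ => ?_⟩
    have h1 : (ZMod.castHom h4 (ZMod 4)) (x ^ 2 + 1) = 0 := by rw [hx, map_zero]
    rw [map_add, map_pow, map_one] at h1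
    have h2 : ∀ y : ZMod 4, y ^ 2 + 1 ≠ 0 := by decide
    exact h2 _ h1
  exact Nat.card_of_isEmpty

/-- no solution of `x² + x + 1 = 0` modulo an even number -/
theorem gn_nuThree_eq_zero {N : ℕ} (h2 : 2 ∣ N) : nuThree N = 0 := by
  unfold nuThree
  haveI : IsEmpty {x : ZMod N // x ^ 2 + x + 1 = 0} := by
    refine ⟨fun ⟨x, hx⟩ => ?_⟩
    have h1 : (ZMod.castHom h2 (ZMod 2)) (x ^ 2 + x + 1) = 0 := by rw [hx, map_zero]
    rw [map_add, map_add, map_pow, map_one] at h1
    have h3 : ∀ y : ZMod 2, y ^ 2 + y + 1 ≠ 0 := by decide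
    exact h3 _ h1
  exact Nat.card_of_isEmpty

/-- the divisors of `M p` for a prime `p ∤ M` -/
theorem gn_divisors_mul_prime {M p : ℕ} (hM : M ≠ 0) (hp : p.Prime) (hpM : ¬ p ∣ M) :
    (M * p).divisors = M.divisors ∪ M.divisors.image (· * p) := by
  ext d
  simp only [Nat.mem_divisors, Finset.mem_union, Finset.mem_image]
  constructor
  · rintro ⟨hd, -⟩
    by_cases hpd : p ∣ d
    · right
      obtain ⟨e, rfl⟩ := hpd
      refine ⟨e, ⟨?_, hM⟩, by ring⟩
      have h1 : p * e ∣ p * M := by rwa [mul_comm p M]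
      exact (Nat.mul_dvd_mul_iff_left hp.pos).mp h1
    · left
      have hcop : Nat.Coprime d p := by
        rw [Nat.coprime_comm, hp.coprime_iff_not_dvd]
        exact hpd
      exact ⟨hcop.dvd_of_dvd_mul_right hd, hM⟩
  · rintro (⟨hd, -⟩ | ⟨e, ⟨he, -⟩, rfl⟩)
    · exact ⟨Dvd.dvd.mul_right hd p, mul_ne_zero hM hp.ne_zero⟩
    · exact ⟨Nat.mul_dvd_mul he (dvd_refl p), mul_ne_zero hM hp.ne_zero⟩

/-- `cuspCount (M p) = 2 cuspCount M` for a prime `p ∤ M` -/
theorem gn_cuspCount_mul_prime {M p : ℕ} (hM : M ≠ 0) (hp : p.Prime) (hpM : ¬ p ∣ M) :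
    cuspCount (M * p) = 2 * cuspCount M := by
  unfold cuspCount
  have hdisj : Disjoint M.divisors (M.divisors.image (· * p)) := by
    rw [Finset.disjoint_left]
    intro d hd hd'
    simp only [Finset.mem_image] at hd'
    obtain ⟨e, -, rfl⟩ := hd'
    exact hpM ((dvd_mul_left p e).trans (Nat.mem_divisors.mp hd).1)
  have hinj : ∀ x ∈ M.divisors, ∀ y ∈ M.divisors, x * p = y * p → x = y := by
    intro x _ y _ h
    exact Nat.eq_of_mul_eq_mul_right hp.pos h
  rw [gn_divisors_mul_prime hM hp hpM, Finset.sum_union hdisj, Finset.sum_image hinj, two_mul]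
  congr 1
  · refine Finset.sum_congr rfl fun d hd => ?_
    obtain ⟨e, he⟩ := (Nat.mem_divisors.mp hd).1
    have hd0 : 0 < d := Nat.pos_of_ne_zero (by
      rintro rfl
      rw [zero_mul] at he
      exact hM he)
    have hcop : Nat.Coprime p d := by
      rw [hp.coprime_iff_not_dvd]
      intro h
      exact hpM (h.trans (Nat.mem_divisors.mp hd).1)
    have h1 : M * p / d = M / d * p := by
      rw [he, Nat.mul_div_cancel_left _ hd0, mul_assoc, Nat.mul_div_cancel_left _ hd0]
    rw [h1, Nat.Coprime.gcd_mul_right_cancel_right _ hcop]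
  · refine Finset.sum_congr rfl fun d hd => ?_
    obtain ⟨e, he⟩ := (Nat.mem_divisors.mp hd).1
    have hd0 : 0 < d := Nat.pos_of_ne_zero (by
      rintro rfl
      rw [zero_mul] at he
      exact hM he)
    have hcop : Nat.Coprime p (M / d) := by
      rw [hp.coprime_iff_not_dvd]
      intro h
      exact hpM (h.trans (Nat.div_dvd_of_dvd (Nat.mem_divisors.mp hd).1))
    have h1 : M * p / (d * p) = M / d := Nat.mul_div_mul_right M d hp.pos
    rw [h1, Nat.Coprime.gcd_mul_right_cancel _ hcop]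

/-- **The genus formula at the levels `M` and `M p`**, `4 ∣ M`, `p ∤ M`. -/
theorem genusFormula_mul_prime {M p : ℕ} (hM : M ≠ 0) (hp : p.Prime) (hpM : ¬ p ∣ M)
    (h4 : 4 ∣ M) :
    genusFormula (M * p) + 1 =
      2 * genusFormula M + ((p : ℚ) - 1) * (dedekindPsi M : ℚ) / 12 := by
  have h2 : 2 ∣ M := (by norm_num : (2 : ℕ) ∣ 4).trans h4
  unfold genusFormula
  rw [gn_nuTwo_eq_zero h4, gn_nuTwo_eq_zero (Dvd.dvd.mul_right h4 p),
    gn_nuThree_eq_zero h2, gn_nuThree_eq_zero (Dvd.dvd.mul_right h2 p),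
    gn_cuspCount_mul_prime hM hp hpM,
    Fermat.Agent.H26.dedekindPsi_mul_prime_of_not_dvd M p (Nat.pos_of_ne_zero hM) hp hpM]
  push_cast
  ring

/-- **The genus gap**: `2 g(M) < g(M p) + 1`. -/
theorem genusFormula_gap {M p : ℕ} (hM : M ≠ 0) (hp : p.Prime) (hpM : ¬ p ∣ M)
    (h4 : 4 ∣ M) : 2 * genusFormula M < genusFormula (M * p) + 1 := by
  rw [genusFormula_mul_prime hM hp hpM h4]
  have hψ : 0 < dedekindPsi M := by
    unfold dedekindPsi
    have h1 : 1 ∈ (M.divisors).filter (fun d => Squarefree d) := by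
      simp [hM]
    refine lt_of_lt_of_le ?_ (Finset.single_le_sum (f := fun d => M / d)
      (fun i _ => Nat.zero_le _) h1)
    simpa using Nat.pos_of_ne_zero hM
  have hψQ : (0 : ℚ) < dedekindPsi M := by exact_mod_cast hψ
  have hpQ : (1 : ℚ) < p := by exact_mod_cast hp.one_lt
  have : 0 < ((p : ℚ) - 1) * (dedekindPsi M : ℚ) / 12 := by
    apply div_pos (mul_pos (by linarith) hψQ)
    norm_num
  linarith

end Fermat.Agent.H21.Ord
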