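import Fermat.Agent.H92.ORD.NodalAsm
import Fermat.Agent.H18.ExTame
import Fermat.Agent.H21.Ord.GenusFF
import Fermat.Agent.H21.Ord.GenusGap
import Fermat.Agent.H21.Ord.FiniteNodes

/-!
# P-ORD, block B1 : THE NODES EXIST (helper21)

`NmNodesStatement M p` (finitely many nodes, at least one) follows from the count of the nodes
`NmGenusEqStatement M p` :  `g(X₀(M p)) + 1 = 2 g' + #nodes`, because

* `g' = genusFF k (NmF (M p) A) = genusFF k (k(X₀(M)))` (RANGE) `≤ genusFF ℚ̄ (ℚ̄(X₀(M)))`
  (`Fermat.Agent.H18.genusFF_modL_le`),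
* `genusFF ℚ̄ (ℚ̄(X₀(N))) = genusFormula N` (`genusFF_eq_genusFormula`),
* `2 genusFormula M < genusFormula (M p) + 1` for `4 ∣ M`, `p ∤ M` (`genusFormula_gap`).

So `#nodes ≥ (p - 1) ψ(M) / 12 > 0`.

* `nm_genusFF_component_le` : `genusFF k (NmF (M p) A) ≤ genusFF ℚ̄ (ℚ̄(X₀(M)))`;
* `nm_genus_gap` : `2 genusFF k (NmF (M p) A) < genusFF ℚ̄ (ℚ̄(X₀(M p))) + 1`;
* `nodes_of_card_eq` : abstract form;
* `nmNodes_of_genusEq : NmGenusEqStatement M p → NmNodesStatement M p`;
* `nmFinite_of_rv` : `Finite (NmNode M p _ A)` from `NmRvHypStatement M p` ALONE (no count; for the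
  provers of the count, who may assume `Finite ι`).
-/

set_option autoImplicit false
set_option linter.unusedSectionVars false
set_option linter.style.haveILetI false
set_option synthInstance.maxHeartbeats 400000

noncomputable section

open ModularCurve AlgebraicCurve

namespace Fermat.Agent.H21.Ord

open Fermat.Agent.H72.FF Fermat.Agent.H18.ORD Fermat.Agent.H84.ORD Fermat.Agent.H27.ESD
  Fermat.Agent.H92.ORD

/-- the Riemann genus is transported along an equality of intermediate fields -/
theorem nm_genusFF_of_eq {K L : Type} [Field K] [Field L] [Algebra K L]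
    (E E' : IntermediateField K L) (h : E = E') :
    @genusFF K ↥E _ _ E.toSubalgebra.algebra = genusFF K ↥E' := by
  subst h
  rfl

/-- the genus of the components is at most the genus of `X₀(M)` in characteristic `0` -/
theorem nm_genusFF_component_le (M p : ℕ) [NeZero M] [NeZero p] (hp : p.Prime) (hpM : ¬ p ∣ M)
    (A : ValuationSubring Qb) (hA : A.LiesOverPrime p) :
    genusFF (kRes A) (NmF (M * p) A) ≤
      genusFF (AlgebraicClosure ℚ) ↥(modularFunctionFieldBar M) := by
  haveI : Fact p.Prime := ⟨hp⟩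
  have h1 : genusFF (kRes A) (NmF (M * p) A) =
      genusFF (kRes A) ↥(modularFunctionFieldFullC (kRes A) M) :=
    nm_genusFF_of_eq _ _ (b1_nmResField_eq M p hp hpM A hA)
  rw [h1]
  exact Fermat.Agent.H18.genusFF_modL_le M p hpM A hA

/-- **The genus gap for the nodal model**: `2 g' < g(X₀(M p)) + 1`. -/
theorem nm_genus_gap (M p : ℕ) [NeZero M] [NeZero p] (hp : p.Prime) (hpM : ¬ p ∣ M)
    (h4 : 4 ∣ M) (A : ValuationSubring Qb) (hA : A.LiesOverPrime p) :
    2 * genusFF (kRes A) (NmF (M * p) A) < genusFF Qb (FLb (M * p)) + 1 := by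
  have h1 := nm_genusFF_component_le M p hp hpM A hA
  have h2 : 2 * genusFF (AlgebraicClosure ℚ) ↥(modularFunctionFieldBar M) <
      genusFF (AlgebraicClosure ℚ) ↥(modularFunctionFieldBar (M * p)) + 1 := by
    have hgap := genusFormula_gap (NeZero.ne M) hp hpM h4
    rw [← genusFF_eq_genusFormula M, ← genusFF_eq_genusFormula (M * p)] at hgap
    exact_mod_cast hgap
  have h3 : genusFF Qb (FLb (M * p)) =
      genusFF (AlgebraicClosure ℚ) ↥(modularFunctionFieldBar (M * p)) := rfl
  rw [h3]
  omega

/-- abstract form: a count of the nodes with a positive gap gives finitely many nodes, at least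
one -/
theorem nodes_of_card_eq {ι : Type} {g g' : ℕ} (hgap : 2 * g' < g + 1)
    (heq : g + 1 = g' + g' + Nat.card ι) : Finite ι ∧ Nonempty ι := by
  have hpos : 0 < Nat.card ι := by omega
  obtain ⟨h1, h2⟩ := Nat.card_pos_iff.mp hpos
  exact ⟨h2, h1⟩

/-- **B1-NODES**: the nodes of the nodal model of `X₀(M p)` are finite in number and exist,
given the count of the nodes. -/
theorem nmNodes_of_genusEq {M p : ℕ} [NeZero M] [NeZero p] (hE : NmGenusEqStatement M p) :
    NmNodesStatement M p := by
  intro A h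
  have hpM : ¬ p ∣ M := fun hd =>
    h.prime.one_lt.ne' (Nat.Coprime.eq_one_of_dvd h.cop.symm hd)
  exact nodes_of_card_eq (nm_genus_gap M p h.prime hpM h.four A h.liesOver) (hE A h)

/-- **Finitely many nodes** for the nodal model of `X₀(M p)`, from the reduction hypotheses alone
(`Fermat.Agent.H21.Ord.finite_nodes`). -/
theorem nmFinite_of_rv {M p : ℕ} [NeZero M] [NeZero p] (hR : NmRvHypStatement M p)
    (A : ValuationSubring Qb) (h : NmSetup M p A) (htot : NmTot M p h.cop A) :
    Finite (NmNode M p h.cop A) := by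
  have hpM : ¬ p ∣ M := fun hd =>
    h.prime.one_lt.ne' (Nat.Coprime.eq_one_of_dvd h.cop.symm hd)
  obtain ⟨-, hrr⟩ := b1_rrHyp_nmF M p h.prime hpM A h.liesOver
  exact finite_nodes_of_principal (hR A h htot) h.prime h.liesOver
    (Fermat.Agent.H58.hasPrincipalDivisors_modularFunctionFieldBar (M * p))
    hrr.principal hrr.principal

end Fermat.Agent.H21.Ord
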