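import Fermat.Agent.H21.Ord.DiscBlocks
import Fermat.Agent.H94.ORD.JacInterfaces

/-!
# P-ORD, block (G-B) : the local blocks in the EXACT shapes of `H94.ORD.JacInterfaces` (helper21)

Adapters from `Fermat.Agent.H21.Ord.DiscBlocks` to the frozen interface Props of block (G-B):

* `taylorRedC21 : Fermat.Agent.H94.ORD.TaylorRedC`  (row ORD-GB-C1),
* `taylorApproxC21 : Fermat.Agent.H94.ORD.TaylorApproxC`  (row ORD-GB-C2),
* `rootApproxC21 : Fermat.Agent.H94.ORD.RootApproxC`  (row ORD-GB-C3, second proof),
* `discZeroC21 : Fermat.Agent.H94.ORD.DiscZeroC`  (row ORD-GB-C4, second proof).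

All four are unconditional.
-/

set_option autoImplicit false
set_option synthInstance.maxHeartbeats 400000
set_option maxHeartbeats 1600000
set_option linter.style.haveILetI false
set_option linter.unusedSectionVars false

noncomputable section

open AlgebraicCurve ModularCurve Fermat.Agent.H27.ESD

namespace Fermat.Agent.H21.Ord

open Fermat.Agent.H10.FF Fermat.Agent.H72.FF Fermat.Agent.H94.FF Fermat.Agent.H18.ORD

/-- helper94's `CompSetup` gives the standing hypotheses of the disc blocks. -/
theorem discHyp_of_compSetup {N p : ℕ} {A : ValuationSubring Qb} {Fk : Type} [Field Fk]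
    [Algebra (kRes A) Fk] {X : Type} {V : Subring (FLb N)} {red : V →+* Fk}
    {r : Place Qb (FLb N) → X} {pt : Place (kRes A) Fk → X}
    {smooth : Place (kRes A) Fk → Prop}
    (hS : Fermat.Agent.H94.ORD.CompSetup N p A V red r pt smooth) :
    DiscHyp A N V red r pt smooth :=
  ⟨hS.comp, hS.inv, hS.degL⟩

/-- helper94's unramified coordinate at a smooth point is one in the sense of `DiscBlocks`. -/
theorem isUnrCoordC_of_h94 {N : ℕ} {A : ValuationSubring Qb} {Fk : Type} [Field Fk]
    [Algebra (kRes A) Fk] {X : Type} {V : Subring (FLb N)} {red : V →+* Fk}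
    {r : Place Qb (FLb N) → X} {pt : Place (kRes A) Fk → X}
    {smooth : Place (kRes A) Fk → Prop} {Q : Place (kRes A) Fk} (hQ : smooth Q)
    {P : Place Qb (FLb N)} {t : V}
    (ht : Fermat.Agent.H94.ORD.IsUnrCoordC A N V red r pt Q P t) :
    IsUnrCoordC A N V red r pt smooth Q P t :=
  ⟨hQ, ht.sp, ht.unrP, ht.unrT, ht.zero, ht.simple, ht.nopole⟩

/-- **[C-TAYLOR]** in the exact interface shape. -/
theorem taylorRedC21 : Fermat.Agent.H94.ORD.TaylorRedC := by
  intro N p A Fk _ _ X V red r pt smooth hS Q hQ P t ht y hy hnp M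
  exact (discHyp_of_compSetup hS).taylorRed Q P t (isUnrCoordC_of_h94 hQ ht) y hy hnp M

/-- **[C-TAPPROX]** in the exact interface shape (unconditional). -/
theorem taylorApproxC21 : Fermat.Agent.H94.ORD.TaylorApproxC := by
  intro N p A Fk _ _ X V red r pt smooth hS Q hQ P t ht y hy hnp S _ n x hx pts τ v hpt hτv hyv hτ
  exact (discHyp_of_compSetup hS).taylorApprox hS.prime hS.liesOver Q P t
    (isUnrCoordC_of_h94 hQ ht) y hy hnp S n x hx pts τ v hpt hτv hyv hτ

/-- **[C-ROOT]** in the exact interface shape (unconditional). -/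
theorem rootApproxC21 : Fermat.Agent.H94.ORD.RootApproxC := by
  intro N p A Fk _ _ X V red r pt smooth hS Q hQ P t ht d y hyU hynp S _ n x hx κ hκ hsimple pts τ
    hpt hτ h0
  exact (discHyp_of_compSetup hS).rootApprox hS.prime hS.liesOver Q P t
    (isUnrCoordC_of_h94 hQ ht) d y hyU hynp S n x hx κ hκ hsimple pts τ hpt hτ h0

/-- **[C-DISC]** in the exact interface shape. -/
theorem discZeroC21 : Fermat.Agent.H94.ORD.DiscZeroC := by
  intro N p A Fk _ _ X V red r pt smooth hS Q hQ u hu hnp
  exact (discHyp_of_compSetup hS).discZero Q hQ u hu hnp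

end Fermat.Agent.H21.Ord
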