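import Fermat.Agent.H94.ORD.JacGlue

/-!
# P-ORD, block (G-B) : GLUE-O (helper21)

The reductions of a doubly integral function without pole over a node are glued at that node:

* `glueO_at` : for `m ∈ O = V_∞ ∩ V_0` without pole specialising to the node `ν`, the reductions
  `red_∞ m`, `red_0 m` are regular at `ν` on both branches, with the same value;
* `glueO` : `IsGlued G (redOoO G m) (red0O G m)` for `m` without pole over any node;
* `glueO_setup` : the same from `NodalSetup` + `IsAlgClosed (kRes A)`;
* `glueO_no_zero` : for a unit constant `c` whose residue avoids minus the value of `m` at `ν`,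
  the function `m + c` has neither zero nor pole over `ν`.

Proof: `m + c` for a constant `c ∈ A` whose residue avoids the (at most two) bad values; then
(M3) `node_le` / `node_lt` with slope `1` show that `m + c` has no zero over `ν`, and (M4)
`glue` applies.
-/

set_option autoImplicit false
set_option synthInstance.maxHeartbeats 400000
set_option maxHeartbeats 1600000
set_option linter.style.haveILetI false
set_option linter.unusedSectionVars false

noncomputable section

open AlgebraicCurve ModularCurve Fermat.Agent.H27.ESD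

namespace Fermat.Agent.H21.Ord

open Fermat.Agent.H10.FF Fermat.Agent.H72.FF Fermat.Agent.H18.ORD Fermat.Agent.H92.ORD
  Fermat.Agent.H94.ORD

variable {N p : ℕ} {A : ValuationSubring Qb} {Foo F0 : Type} [Field Foo] [Field F0]
  [Algebra (kRes A) Foo] [Algebra (kRes A) F0] {ι : Type} {G : NodalData N A Foo F0 ι}

section basics

variable {K F : Type*} [Field K] [Field F] [Algebra K F]

/-- the maximal ideal of a place is closed under subtraction -/
theorem go_sub_mem_nonunits (v : Place K F) {x y : F}
    (hx : x ∈ v.toValuationSubring.nonunits) (hy : y ∈ v.toValuationSubring.nonunits) :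
    x - y ∈ v.toValuationSubring.nonunits := by
  rw [ValuationSubring.mem_nonunits_iff] at hx hy ⊢
  rw [sub_eq_add_neg]
  refine lt_of_le_of_lt (Valuation.map_add _ _ _) (max_lt hx ?_)
  rwa [Valuation.map_neg]

/-- the set of constants `κ` with `x + κ` in the maximal ideal of a place has at most one
element -/
theorem go_bad_subsingleton (v : Place K F) (x : F) :
    {κ : K | x + algebraMap K F κ ∈ v.toValuationSubring.nonunits}.Subsingleton := by
  intro κ hκ κ' hκ'
  have h1 : algebraMap K F (κ - κ') ∈ v.toValuationSubring.nonunits := by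
    have h2 := go_sub_mem_nonunits v hκ hκ'
    have h3 : x + algebraMap K F κ - (x + algebraMap K F κ') = algebraMap K F (κ - κ') := by
      rw [map_sub]
      ring
    rwa [h3] at h2
  have h4 := nb_const_eq_zero_of_mem_nonunits v h1
  exact sub_eq_zero.mp h4

end basics

/-- ultrametric inequality: adding a constant creates no pole -/
theorem go_ord_add_const_nonneg (P : Place Qb (FLb N)) (m : FLb N) (c : Qb)
    (h : 0 ≤ P.ord m) : 0 ≤ P.ord (m + algebraMap Qb (FLb N) c) := by
  by_cases h0 : m + algebraMap Qb (FLb N) c = 0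
  · rw [h0, Place.ord_zero]
  · exact Fermat.Agent.H23.ord_add_ge P h0 0 (Or.inr h)
      (Or.inr (by rw [Fermat.Agent.H23.ord_algebraMap]))

/-- **GLUE-O, technical form**: for `m ∈ O` without pole over the node `ν` and a constant
`c ∈ A` such that neither `red_∞ m + c̄` nor `red_0 m + c̄` lies in the maximal ideal of the
branch of `ν`, the function `m + c` has neither zero nor pole over `ν`. -/
theorem glueO_no_zero (H : NodalRvHyp p G) (hp : p.Prime) (hA : A.LiesOverPrime p)
    (m : nodalO G) (ν : ι)
    (hm : ∀ P, G.r P = NPt.node ν → 0 ≤ P.ord (m : FLb N)) (c : A)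
    (hco : redOoO G m + algebraMap (kRes A) Foo (IsLocalRing.residue A c) ∉
      (G.nOo ν).toValuationSubring.nonunits)
    (hcz : red0O G m + algebraMap (kRes A) F0 (IsLocalRing.residue A c) ∉
      (G.n0 ν).toValuationSubring.nonunits) :
    ∀ P, G.r P = NPt.node ν → P.ord ((m : FLb N) + algebraMap Qb (FLb N) (c : Qb)) = 0 := by
  have hpQ : (p : Qb) ≠ 0 := by exact_mod_cast hp.ne_zero
  set u : nodalO G := m + nodalConst H c with hu
  have hucoe : (u : FLb N) = (m : FLb N) + algebraMap Qb (FLb N) (c : Qb) := rfl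
  have hredo : redOoO G u =
      redOoO G m + algebraMap (kRes A) Foo (IsLocalRing.residue A c) := by
    rw [hu, map_add, redOoO_nodalConst]
  have hredz : red0O G u =
      red0O G m + algebraMap (kRes A) F0 (IsLocalRing.residue A c) := by
    rw [hu, map_add, red0O_nodalConst]
  have hoNe : redOoO G u ≠ 0 := by
    intro h0
    apply hco
    rw [← hredo, h0]
    exact (nb_mem_nonunits_iff _ _).mpr (Or.inl rfl)
  have hzNe : red0O G u ≠ 0 := by
    intro h0
    apply hcz
    rw [← hredz, h0]
    exact (nb_mem_nonunits_iff _ _).mpr (Or.inl rfl)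
  have hnp : ∀ P, G.r P = NPt.node ν → 0 ≤ P.ord (u : FLb N) := by
    intro P hP
    rw [hucoe]
    exact go_ord_add_const_nonneg P _ _ (hm P hP)
  have hrel : ((⟨(u : FLb N), u.2.2⟩ : G.V0) : FLb N) =
      algebraMap Qb (FLb N) 1 * ((⟨(u : FLb N), u.2.1⟩ : G.Voo) : FLb N) := by
    rw [map_one, one_mul]
  have hle := H.node_le ⟨(u : FLb N), u.2.1⟩ ⟨(u : FLb N), u.2.2⟩ 1 hoNe hzNe hrel ν hnp
  have ha0 : 0 ≤ (G.nOo ν).ord (G.redOo ⟨(u : FLb N), u.2.1⟩) :=
    na_nonneg_of_unit hA hpQ one_ne_zero (by rw [inv_one]; exact A.one_mem) hle.1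
  have ha : (G.nOo ν).ord (G.redOo ⟨(u : FLb N), u.2.1⟩) = 0 := by
    by_contra hne
    apply hco
    rw [← hredo]
    refine (nb_mem_nonunits_iff _ _).mpr (Or.inr ?_)
    have : (G.nOo ν).ord (redOoO G u) = (G.nOo ν).ord (G.redOo ⟨(u : FLb N), u.2.1⟩) := rfl
    omega
  intro P hP
  have h1 : 0 ≤ P.ord (u : FLb N) := hnp P hP
  by_contra hne
  have hpos : 0 < P.ord (u : FLb N) := by
    rcases lt_or_eq_of_le h1 with h | h
    · exact h
    · exact absurd h.symm hne
  have hlt := H.node_lt ⟨(u : FLb N), u.2.1⟩ ⟨(u : FLb N), u.2.2⟩ 1 hoNe hzNe hrel ν hnp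
    ⟨P, hP, hpos⟩
  have h2 := hlt.1
  rw [ha, zpow_zero, one_mul] at h2
  exact na_unit_not_mem_nonunits one_ne_zero (by rw [inv_one]; exact A.one_mem) h2

/-- **GLUE-O at one node.** -/
theorem glueO_at (H : NodalRvHyp p G) (hp : p.Prime) (hA : A.LiesOverPrime p)
    [Infinite (kRes A)] (m : nodalO G) (ν : ι)
    (hm : ∀ P, G.r P = NPt.node ν → 0 ≤ P.ord (m : FLb N)) :
    ∃ κ : kRes A,
      redOoO G m - algebraMap (kRes A) Foo κ ∈ (G.nOo ν).toValuationSubring.nonunits ∧
      red0O G m - algebraMap (kRes A) F0 κ ∈ (G.n0 ν).toValuationSubring.nonunits := by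
  have hfin : ({κ : kRes A | redOoO G m + algebraMap (kRes A) Foo κ ∈
        (G.nOo ν).toValuationSubring.nonunits} ∪
      {κ : kRes A | red0O G m + algebraMap (kRes A) F0 κ ∈
        (G.n0 ν).toValuationSubring.nonunits}).Finite :=
    (go_bad_subsingleton (G.nOo ν) (redOoO G m)).finite.union
      (go_bad_subsingleton (G.n0 ν) (red0O G m)).finite
  obtain ⟨κ0, hκ0⟩ := hfin.exists_notMem
  rw [Set.mem_union, not_or] at hκ0
  obtain ⟨c, rfl⟩ := IsLocalRing.residue_surjective (R := A) κ0
  have hb1 : redOoO G m + algebraMap (kRes A) Foo (IsLocalRing.residue A c) ∉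
      (G.nOo ν).toValuationSubring.nonunits := hκ0.1
  have hb2 : red0O G m + algebraMap (kRes A) F0 (IsLocalRing.residue A c) ∉
      (G.n0 ν).toValuationSubring.nonunits := hκ0.2
  have hord := glueO_no_zero H hp hA m ν hm c hb1 hb2
  set u : nodalO G := m + nodalConst H c with hu
  have hredo : redOoO G u =
      redOoO G m + algebraMap (kRes A) Foo (IsLocalRing.residue A c) := by
    rw [hu, map_add, redOoO_nodalConst]
  have hredz : red0O G u =
      red0O G m + algebraMap (kRes A) F0 (IsLocalRing.residue A c) := by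
    rw [hu, map_add, red0O_nodalConst]
  have hoNe : G.redOo ⟨(u : FLb N), u.2.1⟩ ≠ 0 := by
    intro h0
    apply hb1
    rw [← hredo]
    exact (nb_mem_nonunits_iff _ _).mpr (Or.inl h0)
  have hzNe : G.red0 ⟨(u : FLb N), u.2.2⟩ ≠ 0 := by
    intro h0
    apply hb2
    rw [← hredz]
    exact (nb_mem_nonunits_iff _ _).mpr (Or.inl h0)
  obtain ⟨κ, -, h1, h2⟩ := H.glue (u : FLb N) u.2.1 u.2.2 hoNe hzNe ν hord
  refine ⟨κ - IsLocalRing.residue A c, ?_, ?_⟩
  · have h3 : redOoO G m - algebraMap (kRes A) Foo (κ - IsLocalRing.residue A c) =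
        G.redOo ⟨(u : FLb N), u.2.1⟩ - algebraMap (kRes A) Foo κ := by
      have : G.redOo ⟨(u : FLb N), u.2.1⟩ = redOoO G u := rfl
      rw [this, hredo, map_sub]
      ring
    rw [h3]
    exact h1
  · have h3 : red0O G m - algebraMap (kRes A) F0 (κ - IsLocalRing.residue A c) =
        G.red0 ⟨(u : FLb N), u.2.2⟩ - algebraMap (kRes A) F0 κ := by
      have : G.red0 ⟨(u : FLb N), u.2.2⟩ = red0O G u := rfl
      rw [this, hredz, map_sub]
      ring
    rw [h3]
    exact h2

/-- **GLUE-O**: the reductions of a doubly integral function without pole over the nodes are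
glued. -/
theorem glueO (H : NodalRvHyp p G) (hp : p.Prime) (hA : A.LiesOverPrime p)
    [Infinite (kRes A)] (m : nodalO G)
    (hm : ∀ P ν, G.r P = NPt.node ν → 0 ≤ P.ord (m : FLb N)) :
    IsGlued G (redOoO G m) (red0O G m) :=
  fun ν => glueO_at H hp hA m ν fun P hP => hm P ν hP

/-- **GLUE-O** from the standing hypotheses of block (G-B). -/
theorem glueO_setup {g : ℕ} (hS : NodalSetup N p A G g) (hK : IsAlgClosed (kRes A))
    (m : nodalO G) (hm : ∀ P ν, G.r P = NPt.node ν → 0 ≤ P.ord (m : FLb N)) :
    IsGlued G (redOoO G m) (red0O G m) := by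
  haveI := hK
  haveI : Infinite (kRes A) := IsAlgClosed.instInfinite
  exact glueO hS.rv hS.prime hS.liesOver m hm

/-- **GLUE-O** from `NodalSetup` and `NodalPkg`. -/
theorem glueO_pkg {g : ℕ} (hS : NodalSetup N p A G g) (hK : NodalPkg G)
    (m : nodalO G) (hm : ∀ P ν, G.r P = NPt.node ν → 0 ≤ P.ord (m : FLb N)) :
    IsGlued G (redOoO G m) (red0O G m) :=
  glueO_setup hS hK.algClosed m hm

end Fermat.Agent.H21.Ord
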