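/-
P-ORD (S33), block B1 : CONDITIONAL ASSEMBLY (helper21).

`nmBlocks_of_leaves` : the bundle `Fermat.Agent.H92.ORD.NmBlocks M p` (= the only input of
`s33_of_nmBlocks`) from the leaf statements which are still open:

* [HART]  `NmHartogsStatement M p`
* [PG]    `NmPlaceGenStatement M p`
* [XY]    `NmCrossStatement M p`
* [DVR]   `NmDvrOoStatement M p`   (the component `0` follows by the `W`-transport)
* [CRT]   `NmCrtStatement M p`, `NmCrtInvStatement M p`
* [LIFT]  `NmChartLiftStatement M p`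

Everything else is wired inside from the landed blocks.
-/
import Fermat.Agent.H92.ORD.NodalAsm
import Fermat.Agent.H20.ORD.NmSoft
import Fermat.Agent.H84.ORD.NodalSpecFinal
import Fermat.Agent.H66.ORD.TotIdeal
import Fermat.Agent.H2.ORD.NmSurj
import Fermat.Agent.H56.ORD.NmSmoothFinal
import Fermat.Agent.H76.ORD.NmNode
import Fermat.Agent.H40.ORD.NmLattice
import Fermat.Agent.H13.ORD.NmGal
import Fermat.Agent.H95.ORD.LocalW
import Fermat.Agent.H19.ORD.NmAnchorFinal
import Fermat.Agent.H18.ORD.NodalDivThm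
import Fermat.Agent.H85.ORD.UnrNorm
import Fermat.Agent.H23.ORD.NmPairG3On
import Fermat.Agent.H23.ORD.NodeCountEq
import Fermat.Agent.H99.ORD.LiftAsm
import Fermat.Agent.H87.ORD.NodalNC
import Fermat.Agent.H37.ORD.AnchorNm
import Fermat.Agent.H21.Ord.NmNodes
import Fermat.Agent.H31.ORD.NmHartogs
import Fermat.Agent.H17.ORD.CrtAdapter

set_option autoImplicit false
set_option linter.unusedSectionVars false
set_option linter.style.haveILetI false

noncomputable section

open AlgebraicCurve ModularCurve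

namespace Fermat.Agent.H21.Ord

open Fermat.Agent.H72.FF Fermat.Agent.H18.ORD Fermat.Agent.H84.ORD Fermat.Agent.H27.ESD
  Fermat.Agent.H92.ORD Fermat.Agent.H37.ORD

variable {M p : ℕ} [NeZero M] [NeZero p]

/-- [DVR] on the component `0` from the component `∞`. -/
theorem nbc_dvrZero (hDoo : NmDvrOoStatement M p) : NmDvrZeroStatement M p :=
  Fermat.Agent.H95.ORD.nmDvrZero_of_oo' M p (Fermat.Agent.H20.ORD.nmSoft M p) hDoo

/-- **[TOT]** -/
theorem nbc_tot (hDoo : NmDvrOoStatement M p) : NmTotStatement M p :=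
  nmTot (Fermat.Agent.H66.ORD.nmTotIdeal M p) hDoo (nbc_dvrZero hDoo)

/-- **[RV]** -/
theorem nbc_rv (hHart : NmHartogsStatement M p) (hPG : NmPlaceGenStatement M p)
    (hXY : NmCrossStatement M p) (hDoo : NmDvrOoStatement M p) : NmRvHypStatement M p :=
  nmRvHyp_of_fields (Fermat.Agent.H20.ORD.nmSoft M p)
    (nmSpec (Fermat.Agent.H20.ORD.nmSoft M p) (nmChartSoft M p))
    (Fermat.Agent.H56.ORD.nmSmooth M p hHart hPG (Fermat.Agent.H66.ORD.nmTotIdeal M p) hDoo
      (nbc_dvrZero hDoo) (Fermat.Agent.H2.ORD.nmSurjOo M p) (Fermat.Agent.H2.ORD.nmSurjZero M p)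
      (Fermat.Agent.H20.ORD.nmSoft M p))
    (Fermat.Agent.H76.ORD.nmNode M p hHart hXY (Fermat.Agent.H66.ORD.nmTotIdeal M p) hDoo
      (nbc_dvrZero hDoo) (Fermat.Agent.H20.ORD.nmSoft M p))
    (Fermat.Agent.H40.ORD.nmLattice M p)

/-- `p ∤ M` in the standing hypotheses -/
theorem nbc_not_dvd {A : ValuationSubring Qb} (h : NmSetup M p A) : ¬ p ∣ M := fun hd =>
  h.prime.one_lt.ne' (Nat.Coprime.eq_one_of_dvd h.cop.symm hd)

/-- **[NC]** the node count inequality from the anchor lift. -/
theorem nbc_nc (hR : NmRvHypStatement M p) (hAL : NmAnchorStatement M p)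
    (A : ValuationSubring Qb) (h : NmSetup M p A) (htot : NmTot M p h.cop A) :
    genusFF Qb (FLb (M * p)) + 1 ≤
      genusFF (kRes A) (NmF (M * p) A) + genusFF (kRes A) (NmF (M * p) A) +
        Nat.card (NmNode M p h.cop A) := by
  obtain ⟨hac, hrr⟩ := b1_rrHyp_nmF M p h.prime (nbc_not_dvd h) A h.liesOver
  haveI : Infinite (kRes A) := by
    haveI := hac
    exact IsAlgClosed.instInfinite
  exact Fermat.Agent.H87.ORD.nodalNC (M * p) p A (NmF (M * p) A) (NmF (M * p) A)
    (NmNode M p h.cop A) (nmG htot) _ _ _ h.prime h.liesOver (hR A h htot)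
    (nmFinite_of_rv hR A h htot)
    (Fermat.Agent.H58.riemannPackage_of_rrHyp
      (Fermat.Agent.H58.rrHyp_modularFunctionFieldBar (M * p)))
    (Fermat.Agent.H58.riemannPackage_of_rrHyp hrr)
    (Fermat.Agent.H58.riemannPackage_of_rrHyp hrr) (hAL A h htot)

/-- **[LIFT]** the lifting hypotheses from the anchor lift. -/
theorem nbc_lift (hR : NmRvHypStatement M p) (hAL : NmAnchorStatement M p) :
    NmLiftStatement M p := by
  intro A h htot
  obtain ⟨hac, hrr⟩ := b1_rrHyp_nmF M p h.prime (nbc_not_dvd h) A h.liesOver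
  haveI : Infinite (kRes A) := by
    haveI := hac
    exact IsAlgClosed.instInfinite
  haveI : Finite (NmNode M p h.cop A) := nmFinite_of_rv hR A h htot
  have pkL := Fermat.Agent.H58.riemannPackage_of_rrHyp
    (Fermat.Agent.H58.rrHyp_modularFunctionFieldBar (M * p))
  have pk := Fermat.Agent.H58.riemannPackage_of_rrHyp hrr
  refine Fermat.Agent.H19.ORD.nmLift_of_lift h htot (hR A h htot)
    (Fermat.Agent.H13.ORD.nmGalHyp_uncond M p A h htot) pkL.principal pk ?_
  intro Poo P0 Qoo Q0 hPoo hP0 hPooI hP0I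
  exact Fermat.Agent.H99.ORD.nodalLiftAsm (M * p) p A (NmF (M * p) A) (NmF (M * p) A)
    (NmNode M p h.cop A) (nmG htot) _ _ _ h.prime h.liesOver (hR A h htot)
    (nmFinite_of_rv hR A h htot) pkL pk pk (nbc_nc hR hAL A h htot) Poo P0 Qoo Q0 hPoo hP0
    (pairSemiAt_of_norm (hR A h htot) h.prime h.liesOver
      (Fermat.Agent.H85.ORD.nm_unrNorm_oo h htot) (Fermat.Agent.H85.ORD.nm_unrNorm_zero h htot)
      (fun V hV => Fermat.Agent.H23.ORD.nm_pairG3On M p (Fermat.Agent.H20.ORD.nmSoft M p) A h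
        htot V hV) pkL hPooI hP0I)

/-- **[GENUS]** the count of the nodes. -/
theorem nbc_genus (hR : NmRvHypStatement M p) (hT : NmTotStatement M p)
    (hAL : NmAnchorStatement M p) : NmGenusEqStatement M p := by
  intro A h
  have htot := hT A h
  obtain ⟨hac, hrr⟩ := b1_rrHyp_nmF M p h.prime (nbc_not_dvd h) A h.liesOver
  haveI : Finite (NmNode M p h.cop A) := nmFinite_of_rv hR A h htot
  haveI : Infinite (kRes A) := by
    haveI := hac
    exact IsAlgClosed.instInfinite
  exact Fermat.Agent.H23.ORD.nm_genus_eq_of_le M p (Fermat.Agent.H20.ORD.nmSoft M p) A h htot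
    (hR A h htot)
    (Fermat.Agent.H58.riemannPackage_of_rrHyp
      (Fermat.Agent.H58.rrHyp_modularFunctionFieldBar (M * p)))
    hrr (nbc_lift hR hAL A h htot) (nbc_nc hR hAL A h htot)

/-- **The bundle `NmBlocks M p` from the anchor lift** and the local leaves. -/
theorem nmBlocks_of_anchor (hHart : NmHartogsStatement M p) (hPG : NmPlaceGenStatement M p)
    (hXY : NmCrossStatement M p) (hDoo : NmDvrOoStatement M p)
    (hAL : NmAnchorStatement M p) : NmBlocks M p :=
  have hR := nbc_rv hHart hPG hXY hDoo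
  have hT := nbc_tot hDoo
  have hE := nbc_genus hR hT hAL
  { tot := hT
    rv := hR
    gal := Fermat.Agent.H13.ORD.nmGalHyp_uncond M p
    lift := nbc_lift hR hAL
    nodes := nmNodes_of_genusEq hE
    genus := hE }

/-- **The bundle `NmBlocks M p` from the open leaves** [HART], [PG], [XY], [DVR] (component
`∞`), [CRT] on both charts and the chart lift. -/
theorem nmBlocks_of_leaves (hHart : NmHartogsStatement M p) (hPG : NmPlaceGenStatement M p)
    (hXY : NmCrossStatement M p) (hDoo : NmDvrOoStatement M p)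
    (hC : NmCrtStatement M p) (hC' : NmCrtInvStatement M p)
    (hL : NmChartLiftStatement M p) : NmBlocks M p :=
  nmBlocks_of_anchor hHart hPG hXY hDoo
    (nmAnchor (Fermat.Agent.H20.ORD.nmSoft M p) (nbc_rv hHart hPG hXY hDoo) hXY hC hC' hL)

/-- **The bundle `NmBlocks M p` from the four leaves still open at 01:10Z** : [PG], [XY],
[DVR] (component `∞`) and the chart lift; [HART] and [CRT] are plugged in. -/
theorem nmBlocks_of_four (hPG : NmPlaceGenStatement M p)
    (hXY : NmCrossStatement M p) (hDoo : NmDvrOoStatement M p)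
    (hL : NmChartLiftStatement M p) : NmBlocks M p :=
  nmBlocks_of_leaves (Fermat.Agent.H31.ORD.nmHartogs M p) hPG hXY hDoo
    (Fermat.Agent.H17.ORD.nmCrtJ M p hDoo (nbc_dvrZero hDoo) hXY)
    (Fermat.Agent.H17.ORD.nmCrtJInv M p hDoo (nbc_dvrZero hDoo) hXY) hL

end Fermat.Agent.H21.Ord

end
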