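import Fermat.Agent.H58.RR.NonSpecial

/-!
# P-ORD, row [NS] : non-special base points on the components of the special fibre (helper21)

For a function field `F / K` satisfying Riemann's theorem (`Fermat.Agent.H58.RRHyp`), `K`
infinite, `g = genusFF K F` :

* **(NS1)** `exists_nsOne` : outside any finite set `S` there are `g` distinct places whose sum
  `B` satisfies `L(B) = K` (`l(B) = 1`, `i(B) = 0`);
* **(NS2)** `exists_nsTwo` : for a nonempty finite set of places `Nd` (the branches of the nodes)
  and any finite set `S` there are `g + #Nd - 1` distinct places outside `S ∪ Nd` whose sum `B`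
  satisfies `L(B - ∑_{ν ∈ Nd} ν) = 0`;
* the pointwise forms `nsOne_const`, `nsTwo_eq_zero` in terms of the orders of a function, which
  is what the balancing argument consumes.
-/

set_option autoImplicit false

noncomputable section

open AlgebraicCurve

namespace Fermat.Agent.H21.Ord

open Fermat.Agent.H58

variable {K F : Type*} [Field K] [Field F] [Algebra K F]

theorem nsSum_apply_of_mem {T : Finset (Place K F)} {v : Place K F} (hv : v ∈ T) :
    rrSum T v = 1 := by
  classical
  rw [rrSum, Finsupp.finsetSum_apply, Finset.sum_eq_single_of_mem v hv]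
  · rw [Finsupp.single_apply, if_pos rfl]
  · intro w _ hwv
    rw [Finsupp.single_apply, if_neg hwv]

theorem nsSum_apply [DecidableEq (Place K F)] (T : Finset (Place K F)) (v : Place K F) :
    rrSum T v = if v ∈ T then 1 else 0 := by
  split_ifs with hv
  · exact nsSum_apply_of_mem hv
  · exact rrSum_apply_of_notMem hv

/-- **(NS1)** : `g` general points; `L(B) = L(0)`. -/
theorem exists_nsOne_space (h : RRHyp K F) [Infinite K] (S : Finset (Place K F)) :
    ∃ T : Finset (Place K F), T.card = genusFF K F ∧ Disjoint T S ∧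
      riemannRochSpace (rrSum T) = riemannRochSpace (0 : Divisor K F) ∧
      Module.finrank K (H1 (rrSum T)) = 0 := by
  obtain ⟨T, hT, hTS, hL, hH⟩ := h.exists_nonspecial (0 : Divisor K F) S (genusFF K F) le_rfl
  rw [zero_add] at hL hH
  refine ⟨T, hT, hTS, hL, ?_⟩
  have : Module.finrank K (H1 (0 : Divisor K F)) = genusFF K F := rfl
  omega

/-- **(NS1)**, pointwise : a function whose only poles are (at most) simple poles at the `g`
general points is constant. -/
theorem exists_nsOne (h : RRHyp K F) [Infinite K] (S : Finset (Place K F)) :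
    ∃ T : Finset (Place K F), T.card = genusFF K F ∧ Disjoint T S ∧
      Module.finrank K (riemannRochSpace (rrSum T)) = 1 ∧
      Module.finrank K (H1 (rrSum T)) = 0 ∧
      ∀ f : F, (∀ v : Place K F, v ∉ T → f = 0 ∨ 0 ≤ v.ord f) →
        (∀ v : Place K F, v ∈ T → f = 0 ∨ -1 ≤ v.ord f) → ∃ c : K, f = algebraMap K F c := by
  classical
  haveI := h.principal
  obtain ⟨v₀⟩ := h.exists_place
  obtain ⟨T, hT, hTS, hL, hH⟩ := exists_nsOne_space h S
  refine ⟨T, hT, hTS, ?_, hH, fun f hf1 hf2 => ?_⟩
  · rw [hL]
    exact rr_finrank_zero h.deg_one v₀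
  · have hmem : f ∈ riemannRochSpace (rrSum T) := by
      rw [mem_riemannRochSpace_iff]
      intro v
      rw [nsSum_apply]
      split_ifs with hv
      · exact hf2 v hv
      · rcases hf1 v hv with h0 | h0
        · exact Or.inl h0
        · exact Or.inr (by omega)
    rw [hL] at hmem
    exact (rr_mem_zero_iff h.deg_one v₀).mp hmem

theorem ns_degree_neg_rrSum (hdeg : ∀ v : Place K F, v.deg = 1) (Nd : Finset (Place K F)) :
    Divisor.degree (-rrSum Nd) = -(Nd.card : ℤ) := by
  rw [map_neg, rr_degree_rrSum hdeg]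

/-- **(NS2)** : `g + s - 1` general points; `L(B - ∑ nodes) = 0`. -/
theorem exists_nsTwo_space (h : RRHyp K F) [Infinite K] (Nd : Finset (Place K F))
    (hNd : Nd.Nonempty) (S : Finset (Place K F)) :
    ∃ T : Finset (Place K F), T.card + 1 = genusFF K F + Nd.card ∧ Disjoint T S ∧
      Disjoint T Nd ∧ riemannRochSpace (rrSum T - rrSum Nd) = ⊥ := by
  classical
  haveI := h.principal
  have hs : 0 < Nd.card := Finset.card_pos.mpr hNd
  have hdeg : Divisor.degree (-rrSum Nd) < 0 := by
    rw [ns_degree_neg_rrSum h.deg_one]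
    omega
  have hbot : riemannRochSpace (-rrSum Nd) = ⊥ := rr_space_eq_bot_of_degree_neg hdeg
  have hi := h.finrank_H1_eq (-rrSum Nd)
  rw [hbot, finrank_bot, ns_degree_neg_rrSum h.deg_one] at hi
  have hi' : Module.finrank K (H1 (-rrSum Nd)) + 1 = genusFF K F + Nd.card := by
    have : (Module.finrank K (H1 (-rrSum Nd)) : ℤ) + 1 = (genusFF K F : ℤ) + (Nd.card : ℤ) := by
      rw [hi]; push_cast; ring
    exact_mod_cast this
  obtain ⟨T, hT, hTS, hL, -⟩ := h.exists_nonspecial (-rrSum Nd) (S ∪ Nd)
    (Module.finrank K (H1 (-rrSum Nd))) le_rfl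
  refine ⟨T, by omega, ?_, ?_, ?_⟩
  · exact Finset.disjoint_of_subset_right Finset.subset_union_left hTS
  · exact Finset.disjoint_of_subset_right Finset.subset_union_right hTS
  · have : rrSum T - rrSum Nd = -rrSum Nd + rrSum T := by abel
    rw [this, hL, hbot]

/-- **(NS2)**, pointwise : a function vanishing at all the nodes whose only poles are (at most)
simple poles at the `g + s - 1` general points is zero. -/
theorem exists_nsTwo (h : RRHyp K F) [Infinite K] (Nd : Finset (Place K F))
    (hNd : Nd.Nonempty) (S : Finset (Place K F)) :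
    ∃ T : Finset (Place K F), T.card + 1 = genusFF K F + Nd.card ∧ Disjoint T S ∧
      Disjoint T Nd ∧
      ∀ f : F, (∀ v : Place K F, v ∉ T → f = 0 ∨ 0 ≤ v.ord f) →
        (∀ v : Place K F, v ∈ T → f = 0 ∨ -1 ≤ v.ord f) →
        (∀ v : Place K F, v ∈ Nd → f = 0 ∨ 1 ≤ v.ord f) → f = 0 := by
  classical
  obtain ⟨T, hT, hTS, hTN, hL⟩ := exists_nsTwo_space h Nd hNd S
  refine ⟨T, hT, hTS, hTN, fun f hf1 hf2 hf3 => ?_⟩
  have hmem : f ∈ riemannRochSpace (rrSum T - rrSum Nd) := by
    rw [mem_riemannRochSpace_iff]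
    intro v
    rw [Finsupp.sub_apply, nsSum_apply, nsSum_apply]
    by_cases hvT : v ∈ T
    · have hvN : v ∉ Nd := fun hh => (Finset.disjoint_left.mp hTN) hvT hh
      rw [if_pos hvT, if_neg hvN]
      rcases hf2 v hvT with h0 | h0
      · exact Or.inl h0
      · exact Or.inr (by omega)
    · rw [if_neg hvT]
      by_cases hvN : v ∈ Nd
      · rw [if_pos hvN]
        rcases hf3 v hvN with h0 | h0
        · exact Or.inl h0
        · exact Or.inr (by omega)
      · rw [if_neg hvN]
        rcases hf1 v hvT with h0 | h0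
        · exact Or.inl h0
        · exact Or.inr (by omega)
  rw [hL] at hmem
  exact (Submodule.mem_bot K).mp hmem

end Fermat.Agent.H21.Ord

end
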