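import Fermat.Agent.H18.ORD.NodalBal
import Fermat.Agent.H94.FF.Val

/-!
# P-ORD, block B1 : the conservation law (M2) at a smooth point, ABSTRACT form (helper21)

Model-free twin of helper91's `NodeAbs` for the SMOOTH points of a component.

Setting: `A` a valuation subring of `L`, residue field `k`; `F / L` a function field, `V ⊆ F` a
subring ("Gauss valuation ring") with reduction `red : V → Fk`; `Q` a place of `Fk / k`; `S` a set
of places of `F / L` ("the residue disc of `Q`").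

`SmoothDisc A V red Q S` :
* `const_mem`, `red_const`, `inv`, `norm` : the soft facts on `V` (fields of `NodalRvHyp`);
* `deg_one` : the places of the disc have degree one;
* `hart` : HARTOGS: `z ∈ V` without pole on the disc has `red z ∈ O_Q`;
* `hart0` : ... and `red z ∈ 𝔪_Q` if moreover `z` has a zero on the disc;
* `pg` : PLACE GENERATORS: every `P ∈ S` has a uniformiser which is a unit at the other places of
  the disc;
* `unif` : `𝔪_Q` is generated by the reduction of a function without pole on the disc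
  (the component is normal at `Q`).

RESULTS
* `SmoothDisc.ord_eq_zero_of_unit` : a unit of `V` without zero or pole on the disc has a
  reduction which is a unit at `Q`;
* `SmoothDisc.transversal` : TRANSVERSALITY: the reduction of a place generator is a uniformiser
  at `Q`;
* `SmoothDisc.conservation` : **(M2)** `∑_{P ∈ S} ord_P u = ord_Q (red u)` for every unit `u` of
  `V`, in the exact shape of the fields `smooth_oo`, `smooth_zero` of
  `Fermat.Agent.H18.ORD.NodalRvHyp`;
* `smooth_oo_of_discs`, `smooth_zero_of_discs` : the two fields for a `NodalData`.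
-/

set_option autoImplicit false
set_option linter.unusedSectionVars false
set_option linter.style.haveILetI false

noncomputable section

open AlgebraicCurve ModularCurve

namespace Fermat.Agent.H21.Ord

open Fermat.Agent.H18.ORD Fermat.Agent.H94.FF

/-! ## Helpers -/

section helpers

variable {K F : Type*} [Field K] [Field F] [Algebra K F]

/-- `ord` of a finite product of nonzero functions -/
theorem sa_ord_prod (v : Place K F) {ι : Type*} (s : Finset ι) (f : ι → F)
    (hf : ∀ i ∈ s, f i ≠ 0) : v.ord (∏ i ∈ s, f i) = ∑ i ∈ s, v.ord (f i) := by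
  classical
  induction s using Finset.induction_on with
  | empty => simp [Place.ord_one]
  | insert a s ha ih =>
    have h1 : f a ≠ 0 := hf a (Finset.mem_insert_self a s)
    have h2 : ∀ i ∈ s, f i ≠ 0 := fun i hi => hf i (Finset.mem_insert_of_mem hi)
    rw [Finset.prod_insert ha, Finset.sum_insert ha,
      v.ord_mul h1 (Finset.prod_ne_zero_iff.mpr h2), ih h2]

/-- the maximal ideal of a place is closed under subtraction -/
theorem sa_sub_mem_nonunits (v : Place K F) {x y : F}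
    (hx : x ∈ v.toValuationSubring.nonunits) (hy : y ∈ v.toValuationSubring.nonunits) :
    x - y ∈ v.toValuationSubring.nonunits := by
  rw [ValuationSubring.mem_nonunits_iff] at hx hy ⊢
  rw [sub_eq_add_neg]
  refine lt_of_le_of_lt (Valuation.map_add _ _ _) (max_lt hx ?_)
  rwa [Valuation.map_neg]

/-- the fibre sum of a divisor -/
theorem sa_mapDomain_apply {α β : Type*} (r : α → β) (D : α →₀ ℤ) (b : β)
    [DecidablePred fun a => r a = b] :
    Finsupp.mapDomain r D b = ∑ a ∈ D.support.filter (fun a => r a = b), D a := by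
  classical
  rw [Finsupp.mapDomain, Finsupp.sum, Finsupp.finset_sum_apply, Finset.sum_filter]
  refine Finset.sum_congr rfl fun a _ => ?_
  rw [Finsupp.single_apply]

/-- integral powers of a unit of a subring -/
theorem sa_zpow_mem {R : Type*} [Field R] (V : Subring R) {x : R} (hx : x ∈ V) (hxi : x⁻¹ ∈ V)
    (n : ℤ) : x ^ n ∈ V := by
  rcases n with n | n
  · rw [Int.ofNat_eq_natCast, zpow_natCast]
    exact pow_mem hx n
  · rw [zpow_negSucc, ← inv_pow]
    exact pow_mem hxi (n + 1)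

/-- a ring homomorphism from a subring of a field to a field commutes with inverses of units -/
theorem sa_map_inv {R S : Type*} [Field R] [Field S] (V : Subring R) (red : V →+* S) {x : R}
    (hx : x ∈ V) (hxi : x⁻¹ ∈ V) (hx0 : x ≠ 0) :
    red ⟨x⁻¹, hxi⟩ = (red ⟨x, hx⟩)⁻¹ := by
  have h1 : red ⟨x, hx⟩ * red ⟨x⁻¹, hxi⟩ = 1 := by
    rw [← map_mul]
    have : (⟨x, hx⟩ : V) * ⟨x⁻¹, hxi⟩ = 1 := Subtype.ext (mul_inv_cancel₀ hx0)
    rw [this, map_one]
  exact eq_inv_of_mul_eq_one_right h1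

/-- a ring homomorphism from a subring of a field to a field commutes with integral powers of
units -/
theorem sa_map_zpow {R S : Type*} [Field R] [Field S] (V : Subring R) (red : V →+* S) {x : R}
    (hx : x ∈ V) (hxi : x⁻¹ ∈ V) (hx0 : x ≠ 0) (n : ℤ) (h : x ^ n ∈ V) :
    red ⟨x ^ n, h⟩ = red ⟨x, hx⟩ ^ n := by
  have hinv := sa_map_inv V red hx hxi hx0
  rcases n with n | n
  · have e : (⟨x ^ (Int.ofNat n), h⟩ : V) = ⟨x, hx⟩ ^ n := by
      apply Subtype.ext
      show x ^ (Int.ofNat n) = x ^ n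
      rw [Int.ofNat_eq_natCast, zpow_natCast]
    rw [e, map_pow, Int.ofNat_eq_natCast, zpow_natCast]
  · have e : (⟨x ^ (Int.negSucc n), h⟩ : V) = ⟨x⁻¹, hxi⟩ ^ (n + 1) := by
      apply Subtype.ext
      show x ^ (Int.negSucc n) = x⁻¹ ^ (n + 1)
      rw [zpow_negSucc, inv_pow]
    rw [e, map_pow, hinv, zpow_negSucc, inv_pow]

end helpers

/-! ## The abstract smooth disc -/

section SmoothAbs

variable {L F Fk : Type*} [Field L] [Field F] [Algebra L F] [Field Fk]
variable {A : ValuationSubring L} [Algebra (IsLocalRing.ResidueField A) Fk]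

/-- **The abstract hypotheses at a smooth point `Q` of a component**, `S` = the residue disc. -/
structure SmoothDisc (A : ValuationSubring L) [Algebra (IsLocalRing.ResidueField A) Fk]
    (V : Subring F) (red : V →+* Fk) (Q : Place (IsLocalRing.ResidueField A) Fk)
    (S : Set (Place L F)) : Prop where
  /-- constants of `A` lie in `V` -/
  const_mem : ∀ c : L, c ∈ A → algebraMap L F c ∈ V
  /-- the reduction of a constant -/
  red_const : ∀ (c : A) (h : algebraMap L F (c : L) ∈ V),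
    red ⟨_, h⟩ = algebraMap (IsLocalRing.ResidueField A) Fk (IsLocalRing.residue A c)
  /-- elements with nonzero reduction are units of `V` -/
  inv : ∀ u : V, red u ≠ 0 → (u : F)⁻¹ ∈ V
  /-- normalisation (`e = 1`) -/
  norm : ∀ φ : F, φ ≠ 0 → ∃ (c : L) (u : V), c ≠ 0 ∧ red u ≠ 0 ∧
    φ = algebraMap L F c * (u : F)
  /-- the places of the disc have degree one -/
  deg_one : ∀ P ∈ S, P.deg = 1
  /-- HARTOGS: no pole on the disc implies regular reduction at `Q` -/
  hart : ∀ (z : F) (h : z ∈ V), (∀ P ∈ S, 0 ≤ P.ord z) → red ⟨z, h⟩ ∈ Q.toValuationSubring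
  /-- HARTOGS: no pole and a zero on the disc implies that the reduction vanishes at `Q` -/
  hart0 : ∀ (z : F) (h : z ∈ V), (∀ P ∈ S, 0 ≤ P.ord z) → (∃ P ∈ S, 0 < P.ord z) →
    red ⟨z, h⟩ ∈ Q.toValuationSubring.nonunits
  /-- PLACE GENERATORS -/
  pg : ∀ P ∈ S, ∃ t : F, P.ord t = 1 ∧ ∀ P' ∈ S, P' ≠ P → P'.ord t = 0
  /-- the maximal ideal of `Q` is generated by a reduction -/
  unif : ∃ (z : F) (h : z ∈ V), (∀ P ∈ S, 0 ≤ P.ord z) ∧ Q.ord (red ⟨z, h⟩) = 1

variable {V : Subring F} {red : V →+* Fk} {Q : Place (IsLocalRing.ResidueField A) Fk}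
  {S : Set (Place L F)}

theorem sa_ne_zero_of_red {u : V} (hu : red u ≠ 0) : (u : F) ≠ 0 := by
  intro h
  apply hu
  have : u = 0 := Subtype.ext h
  rw [this, map_zero]

/-- a unit of `V` without zero or pole on the disc has a reduction which is a unit at `Q` -/
theorem SmoothDisc.ord_eq_zero_of_unit (H : SmoothDisc A V red Q S) (w : V) (hw : red w ≠ 0)
    (h0 : ∀ P ∈ S, P.ord (w : F) = 0) : Q.ord (red w) = 0 := by
  have hw0 : (w : F) ≠ 0 := sa_ne_zero_of_red hw
  have hwi : (w : F)⁻¹ ∈ V := H.inv w hw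
  have h1 : 0 ≤ Q.ord (red w) :=
    Fermat.Agent.H23.ord_nonneg_of_mem Q (H.hart (w : F) w.2 fun P hP => by rw [h0 P hP])
  have h2 : 0 ≤ Q.ord (red ⟨(w : F)⁻¹, hwi⟩) :=
    Fermat.Agent.H23.ord_nonneg_of_mem Q (H.hart _ hwi fun P hP => by
      rw [Place.ord_inv, h0 P hP, neg_zero])
  rw [sa_map_inv V red w.2 hwi hw0, Place.ord_inv] at h2
  have h3 : red ⟨(w : F), w.2⟩ = red w := rfl
  rw [h3] at h2
  omega

/-- **TRANSVERSALITY**: the reduction of a place generator is a uniformiser at `Q`. -/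
theorem SmoothDisc.transversal (H : SmoothDisc A V red Q S) (t : V) (ht : red t ≠ 0)
    (P : Place L F) (hP : P ∈ S) (h1 : P.ord (t : F) = 1)
    (h0 : ∀ P' ∈ S, P' ≠ P → P'.ord (t : F) = 0) : Q.ord (red t) = 1 := by
  have ht0 : (t : F) ≠ 0 := sa_ne_zero_of_red ht
  have hti : (t : F)⁻¹ ∈ V := H.inv t ht
  have hnp : ∀ P' ∈ S, 0 ≤ P'.ord (t : F) := by
    intro P' hP'
    by_cases hPP : P' = P
    · rw [hPP, h1]
      exact zero_le_one
    · rw [h0 P' hP' hPP]
  -- (a) `red t ∈ 𝔪_Q`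
  have ha : 1 ≤ Q.ord (red t) := by
    have h2 := H.hart0 (t : F) t.2 hnp ⟨P, hP, by rw [h1]; exact zero_lt_one⟩
    rcases (nb_mem_nonunits_iff Q _).mp h2 with h3 | h3
    · exact absurd h3 ht
    · exact h3
  -- (b) a uniformiser `red z`
  obtain ⟨z, hz, hznp, hzQ⟩ := H.unif
  have hredz0 : red ⟨z, hz⟩ ≠ 0 := by
    intro h
    rw [h, Place.ord_zero] at hzQ
    exact zero_ne_one hzQ
  have hzm : red ⟨z, hz⟩ ∈ Q.toValuationSubring.nonunits :=
    (nb_mem_nonunits_iff Q _).mpr (Or.inr (by rw [hzQ]))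
  obtain ⟨c, hc⟩ := exists_hasVal (H.deg_one P hP) (hznp P hP)
  -- the value of `z` at `P` is integral
  have hcA : c ∈ A := by
    by_contra hcA
    have hc0 : c ≠ 0 := by
      rintro rfl
      exact hcA A.zero_mem
    have hci : c⁻¹ ∈ A := (A.mem_or_inv_mem c).resolve_left hcA
    have hcn : c⁻¹ ∈ A.nonunits :=
      A.mem_nonunits_iff_or.mpr (Or.inr (by rw [inv_inv]; exact hcA))
    have hres : IsLocalRing.residue A ⟨c⁻¹, hci⟩ = 0 := by
      rw [IsLocalRing.residue_eq_zero_iff, ← A.coe_mem_nonunits_iff]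
      exact hcn
    have hcV : algebraMap L F c⁻¹ ∈ V := H.const_mem _ hci
    have hz1V : algebraMap L F c⁻¹ * z - 1 ∈ V :=
      V.sub_mem (V.mul_mem hcV hz) V.one_mem
    have hredz1 : red ⟨algebraMap L F c⁻¹ * z - 1, hz1V⟩ = -1 := by
      have e : (⟨algebraMap L F c⁻¹ * z - 1, hz1V⟩ : V) =
          ⟨algebraMap L F c⁻¹, hcV⟩ * ⟨z, hz⟩ - 1 := Subtype.ext rfl
      rw [e, map_sub, map_mul, map_one, H.red_const ⟨c⁻¹, hci⟩ hcV, hres, map_zero, zero_mul,
        zero_sub]
    have hz1ne : algebraMap L F c⁻¹ * z - 1 ≠ 0 := by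
      intro h
      have h5 : (⟨algebraMap L F c⁻¹ * z - 1, hz1V⟩ : V) = 0 := Subtype.ext h
      rw [h5, map_zero] at hredz1
      exact one_ne_zero (neg_eq_zero.mp hredz1.symm)
    have hval : HasVal P (algebraMap L F c⁻¹ * z - 1) 0 := by
      have h5 := (HasVal.const_mul c⁻¹ hc).sub (hasVal_one P)
      rwa [inv_mul_cancel₀ hc0, sub_self] at h5
    have hpos : 0 < P.ord (algebraMap L F c⁻¹ * z - 1) := by
      rcases (hasVal_zero_iff P).mp hval with h5 | h5
      · exact absurd h5 hz1ne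
      · omega
    have hnp1 : ∀ P' ∈ S, 0 ≤ P'.ord (algebraMap L F c⁻¹ * z - 1) := by
      intro P' hP'
      rw [sub_eq_add_neg] at hz1ne ⊢
      refine Fermat.Agent.H23.ord_add_ge P' hz1ne 0 (Or.inr ?_) (Or.inr ?_)
      · rw [nb_ord_const_mul P' (inv_ne_zero hc0)]
        exact hznp P' hP'
      · rw [Fermat.Agent.H23.ord_neg, Place.ord_one]
    have h6 := H.hart0 _ hz1V hnp1 ⟨P, hP, hpos⟩
    rw [hredz1] at h6
    have h7 : (-1 : Fk) = algebraMap (IsLocalRing.ResidueField A) Fk (-1) := by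
      rw [map_neg, map_one]
    rw [h7] at h6
    have h8 := nb_const_eq_zero_of_mem_nonunits Q h6
    exact one_ne_zero (neg_eq_zero.mp h8)
  -- `z₂ = z - c`
  have hcV : algebraMap L F c ∈ V := H.const_mem _ hcA
  have hz2V : z - algebraMap L F c ∈ V := V.sub_mem hz hcV
  have hredz2 : red ⟨z - algebraMap L F c, hz2V⟩ =
      red ⟨z, hz⟩ - algebraMap (IsLocalRing.ResidueField A) Fk
        (IsLocalRing.residue A ⟨c, hcA⟩) := by
    have e : (⟨z - algebraMap L F c, hz2V⟩ : V) = ⟨z, hz⟩ - ⟨algebraMap L F c, hcV⟩ :=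
      Subtype.ext rfl
    rw [e, map_sub, H.red_const ⟨c, hcA⟩ hcV]
  have hz2ne : z - algebraMap L F c ≠ 0 := by
    intro h
    have h5 : (⟨z - algebraMap L F c, hz2V⟩ : V) = 0 := Subtype.ext h
    rw [h5, map_zero] at hredz2
    have h6 : red ⟨z, hz⟩ = algebraMap (IsLocalRing.ResidueField A) Fk
        (IsLocalRing.residue A ⟨c, hcA⟩) := (sub_eq_zero.mp hredz2.symm)
    rw [h6, Fermat.Agent.H23.ord_algebraMap] at hzQ
    exact zero_ne_one hzQ
  have hval2 : HasVal P (z - algebraMap L F c) 0 := by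
    have h5 := hc.sub (hasVal_const P c)
    rwa [sub_self] at h5
  have hpos2 : 1 ≤ P.ord (z - algebraMap L F c) := by
    rcases (hasVal_zero_iff P).mp hval2 with h5 | h5
    · exact absurd h5 hz2ne
    · exact h5
  have hnp2 : ∀ P' ∈ S, 0 ≤ P'.ord (z - algebraMap L F c) := by
    intro P' hP'
    rw [sub_eq_add_neg] at hz2ne ⊢
    refine Fermat.Agent.H23.ord_add_ge P' hz2ne 0 (Or.inr (hznp P' hP')) (Or.inr ?_)
    rw [Fermat.Agent.H23.ord_neg, Fermat.Agent.H23.ord_algebraMap]
  have h9 := H.hart0 _ hz2V hnp2 ⟨P, hP, by omega⟩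
  rw [hredz2] at h9
  have h10 : algebraMap (IsLocalRing.ResidueField A) Fk (IsLocalRing.residue A ⟨c, hcA⟩) ∈
      Q.toValuationSubring.nonunits := by
    have h11 := sa_sub_mem_nonunits Q hzm h9
    rwa [sub_sub_cancel] at h11
  have h12 := nb_const_eq_zero_of_mem_nonunits Q h10
  rw [h12, map_zero, sub_zero] at hredz2
  -- `w = z₂ / t`
  have hwV : (z - algebraMap L F c) * (t : F)⁻¹ ∈ V := V.mul_mem hz2V hti
  have hnpw : ∀ P' ∈ S, 0 ≤ P'.ord ((z - algebraMap L F c) * (t : F)⁻¹) := by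
    intro P' hP'
    rw [P'.ord_mul hz2ne (inv_ne_zero ht0), Place.ord_inv]
    by_cases hPP : P' = P
    · rw [hPP, h1]
      omega
    · rw [h0 P' hP' hPP]
      have := hnp2 P' hP'
      omega
  have hw := Fermat.Agent.H23.ord_nonneg_of_mem Q (H.hart _ hwV hnpw)
  have hredw : red ⟨(z - algebraMap L F c) * (t : F)⁻¹, hwV⟩ =
      red ⟨z, hz⟩ * (red t)⁻¹ := by
    have e : (⟨(z - algebraMap L F c) * (t : F)⁻¹, hwV⟩ : V) =
        ⟨z - algebraMap L F c, hz2V⟩ * ⟨(t : F)⁻¹, hti⟩ := Subtype.ext rfl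
    rw [e, map_mul, hredz2, sa_map_inv V red t.2 hti ht0]
  rw [hredw, Q.ord_mul hredz0 (inv_ne_zero ht), Place.ord_inv, hzQ] at hw
  omega

/-- a normalised place generator with transversal reduction -/
theorem SmoothDisc.exists_gen (H : SmoothDisc A V red Q S) (P : Place L F) (hP : P ∈ S) :
    ∃ t : V, red t ≠ 0 ∧ P.ord (t : F) = 1 ∧ (∀ P' ∈ S, P' ≠ P → P'.ord (t : F) = 0) ∧
      Q.ord (red t) = 1 := by
  obtain ⟨t, h1, h0⟩ := H.pg P hP
  have ht0 : t ≠ 0 := by
    rintro rfl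
    rw [Place.ord_zero] at h1
    exact zero_ne_one h1
  obtain ⟨c, u, hc, hu, htu⟩ := H.norm t ht0
  have e : ∀ P' : Place L F, P'.ord (u : F) = P'.ord t := by
    intro P'
    rw [htu, nb_ord_const_mul P' hc]
  have h1' : P.ord (u : F) = 1 := by rw [e, h1]
  have h0' : ∀ P' ∈ S, P' ≠ P → P'.ord (u : F) = 0 := by
    intro P' hP' hne
    rw [e, h0 P' hP' hne]
  exact ⟨u, hu, h1', h0', H.transversal u hu P hP h1' h0'⟩

/-- **(M2) THE CONSERVATION LAW** at a smooth point: `∑_{r P = x} ord_P u = ord_Q (red u)`. -/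
theorem SmoothDisc.conservation (H : SmoothDisc A V red Q S) {X : Type*} (r : Place L F → X)
    (x : X) (hS : ∀ P, P ∈ S ↔ r P = x) (u : V) (hu : red u ≠ 0) (D : Divisor L F)
    (hD : ∀ P, D P = P.ord (u : F)) : Finsupp.mapDomain r D x = Q.ord (red u) := by
  classical
  have hu0 : (u : F) ≠ 0 := sa_ne_zero_of_red hu
  -- the generators
  have hex : ∀ P : Place L F, ∃ t : V, red t ≠ 0 ∧
      (P ∈ S → P.ord (t : F) = 1 ∧ (∀ P' ∈ S, P' ≠ P → P'.ord (t : F) = 0) ∧
        Q.ord (red t) = 1) := by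
    intro P
    by_cases hP : P ∈ S
    · obtain ⟨t, h1, h2, h3, h4⟩ := H.exists_gen P hP
      exact ⟨t, h1, fun _ => ⟨h2, h3, h4⟩⟩
    · exact ⟨1, by rw [map_one]; exact one_ne_zero, fun h => absurd h hP⟩
  choose t htred htS using hex
  have ht0 : ∀ P, (t P : F) ≠ 0 := fun P => sa_ne_zero_of_red (htred P)
  have hti : ∀ P, (t P : F)⁻¹ ∈ V := fun P => H.inv (t P) (htred P)
  set T : Finset (Place L F) := D.support.filter (fun P => r P = x) with hT
  have hTS : ∀ P ∈ T, P ∈ S := fun P hP => (hS P).mpr (Finset.mem_filter.mp hP).2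
  -- the correcting factors
  let fz : Place L F → V := fun P => ⟨(t P : F) ^ (-(D P)), sa_zpow_mem V (t P).2 (hti P) _⟩
  have hfz_coe : ∀ P, ((fz P : V) : F) = (t P : F) ^ (-(D P)) := fun P => rfl
  have hfz_red : ∀ P, red (fz P) = red (t P) ^ (-(D P)) := fun P =>
    sa_map_zpow V red (t P).2 (hti P) (ht0 P) _ _
  have hfz_ne : ∀ P, ((fz P : V) : F) ≠ 0 := fun P => by
    rw [hfz_coe]
    exact zpow_ne_zero _ (ht0 P)
  have hfz_red_ne : ∀ P, red (fz P) ≠ 0 := fun P => by
    rw [hfz_red]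
    exact zpow_ne_zero _ (htred P)
  set w : V := u * ∏ P ∈ T, fz P with hw
  have hw_coe : (w : F) = (u : F) * ∏ P ∈ T, ((fz P : V) : F) := by
    rw [hw, Subring.coe_mul]
    congr 1
    exact SubmonoidClass.coe_finsetProd _ _
  have hw_red : red w = red u * ∏ P ∈ T, red (fz P) := by
    rw [hw, map_mul, map_prod]
  have hw_red_ne : red w ≠ 0 := by
    rw [hw_red]
    exact mul_ne_zero hu (Finset.prod_ne_zero_iff.mpr fun P _ => hfz_red_ne P)
  -- `w` has trivial divisor on the disc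
  have hw_ord : ∀ P' ∈ S, P'.ord (w : F) = 0 := by
    intro P' hP'
    rw [hw_coe, P'.ord_mul hu0 (Finset.prod_ne_zero_iff.mpr fun P _ => hfz_ne P),
      sa_ord_prod P' T _ (fun P _ => hfz_ne P), ← hD P']
    have h1 : ∀ P ∈ T, P'.ord ((fz P : V) : F) = if P = P' then -(D P') else 0 := by
      intro P hP
      rw [hfz_coe, Place.ord_zpow]
      by_cases hPP : P = P'
      · rw [if_pos hPP, hPP, (htS P' hP').1, mul_one]
      · rw [if_neg hPP, (htS P (hTS P hP)).2.1 P' hP' (Ne.symm hPP), mul_zero]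
    rw [Finset.sum_congr rfl h1, Finset.sum_ite_eq' T P']
    by_cases hP'T : P' ∈ T
    · rw [if_pos hP'T]
      omega
    · rw [if_neg hP'T, add_zero]
      by_contra hne
      exact hP'T (Finset.mem_filter.mpr ⟨Finsupp.mem_support_iff.mpr hne, (hS P').mp hP'⟩)
  have h0 := H.ord_eq_zero_of_unit w hw_red_ne hw_ord
  rw [hw_red, Q.ord_mul hu (Finset.prod_ne_zero_iff.mpr fun P _ => hfz_red_ne P),
    sa_ord_prod Q T _ (fun P _ => hfz_red_ne P)] at h0
  have h2 : ∀ P ∈ T, Q.ord (red (fz P)) = -(D P) := by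
    intro P hP
    rw [hfz_red, Place.ord_zpow, (htS P (hTS P hP)).2.2, mul_one]
  rw [Finset.sum_congr rfl h2, Finset.sum_neg_distrib] at h0
  rw [sa_mapDomain_apply r D x]
  have h3 : ∑ a ∈ D.support.filter (fun a => r a = x), D a = ∑ P ∈ T, D P := by
    refine Finset.sum_congr ?_ fun _ _ => rfl
    ext a
    simp only [hT, Finset.mem_filter]
  omega

end SmoothAbs

/-! ## The two fields of `NodalRvHyp` -/

section Nodal

open Fermat.Agent.H72.FF

variable {N : ℕ} {A : ValuationSubring Qb} {Foo F0 : Type} [Field Foo] [Field F0]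
  [Algebra (kRes A) Foo] [Algebra (kRes A) F0] {ι : Type}

/-- the field `smooth_oo` of `NodalRvHyp` from the abstract smooth discs of `C_∞` -/
theorem smooth_oo_of_discs (G : NodalData N A Foo F0 ι)
    (hd : ∀ Q : Place (kRes A) Foo, Q ∉ Set.range G.nOo →
      SmoothDisc A G.Voo G.redOo Q {P | G.r P = NPt.oo Q}) :
    ∀ u : G.Voo, G.redOo u ≠ 0 → ∀ D : Divisor Qb (FLb N),
      (∀ P, D P = P.ord (u : FLb N)) → ∀ Q : Place (kRes A) Foo, Q ∉ Set.range G.nOo →
        Finsupp.mapDomain G.r D (NPt.oo Q) = Q.ord (G.redOo u) :=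
  fun u hu D hD Q hQ => (hd Q hQ).conservation G.r (NPt.oo Q) (fun _ => Iff.rfl) u hu D hD

/-- the field `smooth_zero` of `NodalRvHyp` from the abstract smooth discs of `C_0` -/
theorem smooth_zero_of_discs (G : NodalData N A Foo F0 ι)
    (hd : ∀ Q : Place (kRes A) F0, Q ∉ Set.range G.n0 →
      SmoothDisc A G.V0 G.red0 Q {P | G.r P = NPt.zero Q}) :
    ∀ w : G.V0, G.red0 w ≠ 0 → ∀ D : Divisor Qb (FLb N),
      (∀ P, D P = P.ord (w : FLb N)) → ∀ Q : Place (kRes A) F0, Q ∉ Set.range G.n0 →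
        Finsupp.mapDomain G.r D (NPt.zero Q) = Q.ord (G.red0 w) :=
  fun w hw D hD Q hQ => (hd Q hQ).conservation G.r (NPt.zero Q) (fun _ => Iff.rfl) w hw D hD

end Nodal

end Fermat.Agent.H21.Ord
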